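import Mathlib

/-!
# Symmetric equidistribution from one-sided character bounds (finite Fourier analysis)

`U` a finite abelian group, `A ≤ U` a subgroup, `v i ≥ 0` summable weights with classes `c i ∈ U`
(`c i ∈ A` whenever `v i ≠ 0`).  If

* `|∑ v i - Λ| ≤ C₁`,
* `∑ Re χ(c i) v i ≤ C₂` for every character `χ` of `U` which is nontrivial on `A`,
* `Λ - C₃ ≤ #A · ∑_{c i = 1} v i`,

then `∑ ([c i = a] + [c i = a⁻¹]) v i` is within `2 C₁ + 2 #U (C₁ + C₂ + C₃)` of `(2 / #A) Λ`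
for every `a ∈ A`.
-/

set_option autoImplicit false
set_option linter.unusedSectionVars false

namespace Fermat.Agent.DS.Cheb

section Characters

variable {U : Type*} [CommGroup U] [Finite U]

theorem ch_finite_char : Finite (U →* ℂˣ) := by
  have : NeZero (Monoid.exponent U) := ⟨Monoid.exponent_ne_zero_of_finite⟩
  obtain ⟨e⟩ := CommGroup.monoidHom_mulEquiv_of_hasEnoughRootsOfUnity U ℂ
  exact Finite.of_equiv U e.symm.toEquiv

theorem ch_card_char : Nat.card (U →* ℂˣ) = Nat.card U := by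
  have : NeZero (Monoid.exponent U) := ⟨Monoid.exponent_ne_zero_of_finite⟩
  exact CommGroup.card_monoidHom_of_hasEnoughRootsOfUnity U ℂ

theorem ch_norm_char (χ : U →* ℂˣ) (a : U) : ‖((χ a : ℂˣ) : ℂ)‖ = 1 := by
  have h : ((χ a : ℂˣ) : ℂ) ^ Nat.card U = 1 := by
    rw [← Units.val_pow_eq_pow_val, ← map_pow, pow_card_eq_one', map_one, Units.val_one]
  exact Complex.norm_eq_one_of_pow_eq_one h Nat.card_pos.ne'

theorem ch_abs_re_le (χ : U →* ℂˣ) (a : U) : |((χ a : ℂˣ) : ℂ).re| ≤ 1 :=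
  (Complex.abs_re_le_norm _).trans (ch_norm_char χ a).le

theorem ch_inv_eq_conj (χ : U →* ℂˣ) (a : U) :
    ((χ a⁻¹ : ℂˣ) : ℂ) = (starRingEnd ℂ) ((χ a : ℂˣ) : ℂ) := by
  rw [map_inv, Units.val_inv_eq_inv_val, Complex.inv_eq_conj (ch_norm_char χ a)]

/-- Orthogonality: the sum of `χ a` over all characters `χ`. -/
theorem ch_sum_char_apply [Fintype (U →* ℂˣ)] [DecidableEq U] (a : U) :
    ∑ χ : U →* ℂˣ, ((χ a : ℂˣ) : ℂ) = if a = 1 then (Nat.card U : ℂ) else 0 := by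
  split_ifs with ha
  · subst ha
    simp only [map_one, Units.val_one, Finset.sum_const, Finset.card_univ, nsmul_eq_mul, mul_one]
    rw [← Nat.card_eq_fintype_card, ch_card_char]
  · have : NeZero (Monoid.exponent U) := ⟨Monoid.exponent_ne_zero_of_finite⟩
    obtain ⟨χ₀, hχ₀⟩ := CommGroup.exists_apply_ne_one_of_hasEnoughRootsOfUnity U ℂ ha
    have hS : ∑ χ : U →* ℂˣ, ((χ a : ℂˣ) : ℂ) =
        ((χ₀ a : ℂˣ) : ℂ) * ∑ χ : U →* ℂˣ, ((χ a : ℂˣ) : ℂ) := by
      rw [Finset.mul_sum]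
      rw [← Equiv.sum_comp (Equiv.mulLeft χ₀) (fun χ : U →* ℂˣ => ((χ a : ℂˣ) : ℂ))]
      refine Finset.sum_congr rfl fun χ _ => ?_
      simp [MonoidHom.mul_apply]
    have hne : ((χ₀ a : ℂˣ) : ℂ) ≠ 1 := by
      intro h
      exact hχ₀ (Units.ext h)
    have h2 : (1 - ((χ₀ a : ℂˣ) : ℂ)) * ∑ χ : U →* ℂˣ, ((χ a : ℂˣ) : ℂ) = 0 := by
      rw [sub_mul, one_mul, ← hS, sub_self]
    rcases mul_eq_zero.mp h2 with h | h
    · exact absurd (sub_eq_zero.mp h).symm hne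
    · exact h

/-- The sum of a nontrivial character over the group vanishes. -/
theorem ch_sum_group_char {G : Type*} [CommGroup G] [Fintype G] (ψ : G →* ℂˣ) (hψ : ψ ≠ 1) :
    ∑ g : G, ((ψ g : ℂˣ) : ℂ) = 0 := by
  obtain ⟨g₀, hg₀⟩ : ∃ g₀, ψ g₀ ≠ 1 := by
    by_contra h
    push Not at h
    exact hψ (MonoidHom.ext fun g => by simpa using h g)
  have hS : ∑ g : G, ((ψ g : ℂˣ) : ℂ) = ((ψ g₀ : ℂˣ) : ℂ) * ∑ g : G, ((ψ g : ℂˣ) : ℂ) := by
    rw [Finset.mul_sum, ← Equiv.sum_comp (Equiv.mulLeft g₀) (fun g : G => ((ψ g : ℂˣ) : ℂ))]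
    refine Finset.sum_congr rfl fun g _ => ?_
    simp
  have hne : ((ψ g₀ : ℂˣ) : ℂ) ≠ 1 := fun h => hg₀ (Units.ext h)
  have h2 : (1 - ((ψ g₀ : ℂˣ) : ℂ)) * ∑ g : G, ((ψ g : ℂˣ) : ℂ) = 0 := by
    rw [sub_mul, one_mul, ← hS, sub_self]
  rcases mul_eq_zero.mp h2 with h | h
  · exact absurd (sub_eq_zero.mp h).symm hne
  · exact h

/-- Real form of orthogonality. -/
theorem ch_sum_re [Fintype (U →* ℂˣ)] [DecidableEq U] (u : U) :
    ∑ χ : U →* ℂˣ, ((χ u : ℂˣ) : ℂ).re = if u = 1 then (Nat.card U : ℝ) else 0 := by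
  rw [← Complex.re_sum, ch_sum_char_apply]
  split_ifs <;> simp

/-- Symmetric orthogonality: `∑_χ 2 Re χ(a) Re χ(u) = #U ([u = a] + [u = a⁻¹])`. -/
theorem ch_sum_re_mul_re [Fintype (U →* ℂˣ)] [DecidableEq U] (a u : U) :
    ∑ χ : U →* ℂˣ, 2 * ((χ a : ℂˣ) : ℂ).re * ((χ u : ℂˣ) : ℂ).re =
      (Nat.card U : ℝ) * ((if u = a then 1 else 0) + (if u = a⁻¹ then 1 else 0)) := by
  have h1 := ch_sum_re (U := U) (a⁻¹ * u)
  have h2 := ch_sum_re (U := U) (a * u)
  have h3 : ∀ χ : U →* ℂˣ, 2 * ((χ a : ℂˣ) : ℂ).re * ((χ u : ℂˣ) : ℂ).re =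
      ((χ (a⁻¹ * u) : ℂˣ) : ℂ).re + ((χ (a * u) : ℂˣ) : ℂ).re := by
    intro χ
    rw [map_mul, map_mul, Units.val_mul, Units.val_mul, ch_inv_eq_conj, Complex.mul_re,
      Complex.mul_re, Complex.conj_re, Complex.conj_im]
    ring
  rw [Finset.sum_congr rfl (fun χ _ => h3 χ), Finset.sum_add_distrib, h1, h2]
  have e1 : (a⁻¹ * u = 1) ↔ u = a := by
    rw [inv_mul_eq_one, eq_comm]
  have e2 : (a * u = 1) ↔ u = a⁻¹ :=
    ⟨fun h => eq_inv_of_mul_eq_one_right h, fun h => by rw [h, mul_inv_cancel]⟩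
  simp only [e1, e2]
  split_ifs <;> ring

/-- The number of characters of `U` that are trivial on a subgroup `A`. -/
theorem ch_card_trivial_on [Fintype (U →* ℂˣ)] [DecidableEq U] (A : Subgroup U)
    [DecidablePred fun χ : U →* ℂˣ => ∀ a ∈ A, χ a = 1] :
    ((Finset.univ.filter (fun χ : U →* ℂˣ => ∀ a ∈ A, χ a = 1)).card : ℝ) * (Nat.card A : ℝ) =
      (Nat.card U : ℝ) := by
  classical
  letI : Fintype A := Fintype.ofFinite A
  -- double counting `∑_χ ∑_{a ∈ A} χ a`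
  have hA : ∀ χ : U →* ℂˣ, ∑ a : A, ((χ (a : U) : ℂˣ) : ℂ) =
      if (∀ a ∈ A, χ a = 1) then (Nat.card A : ℂ) else 0 := by
    intro χ
    split_ifs with h
    · rw [Finset.sum_congr rfl (fun a _ => by rw [h a.1 a.2, Units.val_one]),
        Finset.sum_const, Finset.card_univ, nsmul_eq_mul, mul_one, Nat.card_eq_fintype_card]
    · have hne : χ.comp A.subtype ≠ 1 := by
        intro h1
        apply h
        intro a ha
        have := DFunLike.congr_fun h1 ⟨a, ha⟩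
        simpa using this
      have := ch_sum_group_char (χ.comp A.subtype) hne
      simpa using this
  have h1 : ∑ χ : U →* ℂˣ, ∑ a : A, ((χ (a : U) : ℂˣ) : ℂ) = (Nat.card U : ℂ) := by
    rw [Finset.sum_comm]
    simp only [ch_sum_char_apply]
    rw [Finset.sum_eq_single (1 : A)]
    · simp
    · intro b _ hb
      rw [if_neg]
      intro h
      exact hb (Subtype.ext h)
    · intro h
      exact absurd (Finset.mem_univ _) h
  rw [Finset.sum_congr rfl (fun χ _ => hA χ), ← Finset.sum_filter, Finset.sum_const,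
    nsmul_eq_mul] at h1
  exact_mod_cast h1

end Characters

section Fourier

variable {ι : Type*} {U : Type*} [CommGroup U] [Finite U]

theorem ch_summable_re_mul (c : ι → U) (v : ι → ℝ) (hv : ∀ i, 0 ≤ v i) (hsum : Summable v)
    (χ : U →* ℂˣ) : Summable fun i => ((χ (c i) : ℂˣ) : ℂ).re * v i := by
  refine Summable.of_norm_bounded hsum (fun i => ?_)
  rw [norm_mul, Real.norm_eq_abs, Real.norm_of_nonneg (hv i)]
  calc |((χ (c i) : ℂˣ) : ℂ).re| * v i ≤ 1 * v i :=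
        mul_le_mul_of_nonneg_right (ch_abs_re_le χ (c i)) (hv i)
    _ = v i := one_mul _

theorem ch_summable_ite (c : ι → U) (v : ι → ℝ) (hv : ∀ i, 0 ≤ v i) (hsum : Summable v)
    (P : U → Prop) [DecidablePred P] : Summable fun i => if P (c i) then v i else 0 := by
  refine Summable.of_nonneg_of_le (fun i => ?_) (fun i => ?_) hsum
  · split_ifs
    · exact hv i
    · exact le_rfl
  · split_ifs
    · exact le_rfl
    · exact hv i

/-- **Symmetric equidistribution from one-sided character bounds.** -/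
theorem fourier_two_sided [DecidableEq U] (A : Subgroup U)
    (c : ι → U) (v : ι → ℝ) (hv : ∀ i, 0 ≤ v i) (hsum : Summable v)
    (hcA : ∀ i, v i ≠ 0 → c i ∈ A)
    (Λ C1 C2 C3 : ℝ) (hC1 : 0 ≤ C1) (hC2 : 0 ≤ C2) (hC3 : 0 ≤ C3)
    (H1 : |∑' i, v i - Λ| ≤ C1)
    (H2 : ∀ χ : U →* ℂˣ, (∃ a ∈ A, χ a ≠ 1) → ∑' i, ((χ (c i) : ℂˣ) : ℂ).re * v i ≤ C2)
    (H3 : Λ - C3 ≤ (Nat.card A : ℝ) * ∑' i, (if c i = 1 then v i else 0))
    (a : U) (ha : a ∈ A) :
    |∑' i, ((if c i = a then v i else 0) + (if c i = a⁻¹ then v i else 0))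
        - 2 / (Nat.card A : ℝ) * Λ| ≤ 2 * C1 + 2 * (Nat.card U : ℝ) * (C1 + C2 + C3) := by
  classical
  have : Finite (U →* ℂˣ) := ch_finite_char
  letI : Fintype (U →* ℂˣ) := Fintype.ofFinite _
  set N : ℝ := (Nat.card U : ℝ) with hN
  have hNpos : 0 < N := by rw [hN]; exact_mod_cast Nat.card_pos
  have hN1 : 1 ≤ N := by rw [hN]; exact_mod_cast Nat.card_pos
  set cA : ℝ := (Nat.card A : ℝ) with hcAdef
  have hcApos : 0 < cA := by rw [hcAdef]; exact_mod_cast Nat.card_pos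
  set P : (U →* ℂˣ) → ℝ := fun χ => ∑' i, ((χ (c i) : ℂˣ) : ℂ).re * v i with hP
  set V : ℝ := ∑' i, v i with hV
  set V1 : ℝ := ∑' i, (if c i = 1 then v i else 0) with hV1
  set X : Finset (U →* ℂˣ) := Finset.univ.filter (fun χ : U →* ℂˣ => ∀ a ∈ A, χ a = 1) with hX
  set Y : Finset (U →* ℂˣ) := Finset.univ.filter (fun χ : U →* ℂˣ => ¬ ∀ a ∈ A, χ a = 1) with hY
  have hXcard : (X.card : ℝ) * cA = N := ch_card_trivial_on A
  have hXY : (X.card : ℝ) + (Y.card : ℝ) = N := by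
    have h := Finset.card_filter_add_card_filter_not (s := (Finset.univ : Finset (U →* ℂˣ)))
      (fun χ : U →* ℂˣ => ∀ a ∈ A, χ a = 1)
    rw [Finset.card_univ, ← Nat.card_eq_fintype_card, ch_card_char] at h
    rw [hN, ← h]
    push_cast
    rfl
  have hXle : (X.card : ℝ) ≤ N := by
    have : (0 : ℝ) ≤ Y.card := Nat.cast_nonneg _
    linarith
  have hYle : (Y.card : ℝ) ≤ N := by
    have : (0 : ℝ) ≤ X.card := Nat.cast_nonneg _
    linarith
  have hsplit : ∀ f : (U →* ℂˣ) → ℝ, ∑ χ, f χ = ∑ χ ∈ X, f χ + ∑ χ ∈ Y, f χ := fun f =>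
    (Finset.sum_filter_add_sum_filter_not Finset.univ _ f).symm
  -- (K2) characters trivial on `A`
  have hK2 : ∀ χ ∈ X, P χ = V := by
    intro χ hχ
    rw [hX, Finset.mem_filter] at hχ
    refine tsum_congr fun i => ?_
    by_cases h0 : v i = 0
    · rw [h0, mul_zero]
    · rw [hχ.2 _ (hcA i h0), Units.val_one, Complex.one_re, one_mul]
  -- (K1) sum over all characters
  have hK1 : ∑ χ, P χ = N * V1 := by
    rw [hP, hV1, ← Summable.tsum_finsetSum (fun χ _ => ch_summable_re_mul c v hv hsum χ),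
      ← tsum_mul_left]
    refine tsum_congr fun i => ?_
    rw [← Finset.sum_mul, ch_sum_re]
    split_ifs <;> simp [hN]
  -- (K3) the target
  have hK3 : N * ∑' i, ((if c i = a then v i else 0) + (if c i = a⁻¹ then v i else 0)) =
      ∑ χ, 2 * ((χ a : ℂˣ) : ℂ).re * P χ := by
    rw [hP]
    simp only [← tsum_mul_left]
    rw [← Summable.tsum_finsetSum (fun χ _ => (ch_summable_re_mul c v hv hsum χ).mul_left _)]
    refine tsum_congr fun i => ?_
    have := ch_sum_re_mul_re (U := U) a (c i)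
    have h2 : ∑ χ : U →* ℂˣ, 2 * ((χ a : ℂˣ) : ℂ).re * (((χ (c i) : ℂˣ) : ℂ).re * v i) =
        (∑ χ : U →* ℂˣ, 2 * ((χ a : ℂˣ) : ℂ).re * ((χ (c i) : ℂˣ) : ℂ).re) * v i := by
      rw [Finset.sum_mul]
      refine Finset.sum_congr rfl fun χ _ => by ring
    rw [h2, this, ← hN]
    split_ifs <;> ring
  -- bounds on the nontrivial part
  have hH2 : ∀ χ ∈ Y, P χ ≤ C2 := by
    intro χ hχ
    rw [hY, Finset.mem_filter] at hχ
    refine H2 χ ?_
    have := hχ.2
    push Not at this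
    exact this
  have hV_le : V ≤ Λ + C1 := by have := (abs_le.mp H1).2; linarith
  have hV_ge : Λ - C1 ≤ V := by have := (abs_le.mp H1).1; linarith
  have hsumX : ∑ χ ∈ X, P χ = X.card * V := by
    rw [Finset.sum_congr rfl hK2, Finset.sum_const, nsmul_eq_mul]
  have hXnn : (0 : ℝ) ≤ X.card := Nat.cast_nonneg _
  have hYnn : (0 : ℝ) ≤ Y.card := Nat.cast_nonneg _
  have hsumY : -(N * (C1 + C3)) ≤ ∑ χ ∈ Y, P χ := by
    have h1 : ∑ χ ∈ Y, P χ = N * V1 - X.card * V := by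
      have := hsplit P
      rw [hK1, hsumX] at this
      linarith
    rw [h1]
    have h2 : N * V1 = X.card * (cA * V1) := by rw [← mul_assoc, hXcard]
    rw [h2]
    have h3 : (X.card : ℝ) * (Λ - C3) ≤ X.card * (cA * V1) := mul_le_mul_of_nonneg_left H3 hXnn
    have h4 : (X.card : ℝ) * V ≤ X.card * (Λ + C1) := mul_le_mul_of_nonneg_left hV_le hXnn
    have h5 : (X.card : ℝ) * (C1 + C3) ≤ N * (C1 + C3) :=
      mul_le_mul_of_nonneg_right hXle (by linarith)
    nlinarith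
  set D : ℝ := N * (C1 + C2 + C3) with hD
  have hD0 : 0 ≤ D := by rw [hD]; positivity
  have hPabs : ∀ χ ∈ Y, |P χ| ≤ D := by
    intro χ hχ
    rw [abs_le]
    constructor
    · have h1 : ∑ χ' ∈ Y, P χ' = P χ + ∑ χ' ∈ Y.erase χ, P χ' :=
        (Finset.add_sum_erase Y P hχ).symm
      have h2 : ∑ χ' ∈ Y.erase χ, P χ' ≤ (Y.erase χ).card * C2 := by
        rw [← nsmul_eq_mul]
        exact Finset.sum_le_card_nsmul _ _ _ (fun χ' hχ' => hH2 χ' (Finset.mem_of_mem_erase hχ'))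
      have h3 : ((Y.erase χ).card : ℝ) ≤ N := by
        have : ((Y.erase χ).card : ℝ) ≤ Y.card := by
          exact_mod_cast Finset.card_le_card (Finset.erase_subset _ _)
        linarith
      have h4 : ((Y.erase χ).card : ℝ) * C2 ≤ N * C2 := mul_le_mul_of_nonneg_right h3 hC2
      rw [hD]
      nlinarith
    · have h1 := hH2 χ hχ
      have h2 : C2 ≤ N * C2 := by nlinarith
      have h3 : N * C2 ≤ D := by rw [hD]; nlinarith
      linarith
  -- conclusion
  set T : ℝ := ∑' i, ((if c i = a then v i else 0) + (if c i = a⁻¹ then v i else 0)) with hT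
  have hre1 : ∀ χ ∈ X, 2 * ((χ a : ℂˣ) : ℂ).re * P χ = 2 * V := by
    intro χ hχ
    rw [hK2 χ hχ]
    rw [hX, Finset.mem_filter] at hχ
    rw [hχ.2 a ha, Units.val_one, Complex.one_re, mul_one]
  have hYpart : |∑ χ ∈ Y, 2 * ((χ a : ℂˣ) : ℂ).re * P χ| ≤ Y.card * (2 * D) := by
    refine (Finset.abs_sum_le_sum_abs _ _).trans ?_
    rw [← nsmul_eq_mul]
    refine Finset.sum_le_card_nsmul _ _ _ (fun χ hχ => ?_)
    rw [abs_mul, abs_mul, abs_two]
    have h1 := ch_abs_re_le χ a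
    have h2 := hPabs χ hχ
    have h3 : |((χ a : ℂˣ) : ℂ).re| * |P χ| ≤ 1 * D :=
      mul_le_mul h1 h2 (abs_nonneg _) zero_le_one
    nlinarith
  have hNT : N * T = X.card * (2 * V) + ∑ χ ∈ Y, 2 * ((χ a : ℂˣ) : ℂ).re * P χ := by
    rw [hK3, hsplit, Finset.sum_congr rfl hre1, Finset.sum_const, nsmul_eq_mul]
  have hXdiv : (X.card : ℝ) = N / cA := by
    rw [eq_div_iff hcApos.ne', hXcard]
  have hY2 : (Y.card : ℝ) * (2 * D) ≤ N * (2 * D) := mul_le_mul_of_nonneg_right hYle (by linarith)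
  have hgoal : |N * T - N * (2 / cA * Λ)| ≤ N * (2 * C1 + 2 * D) := by
    have e : N * T - N * (2 / cA * Λ) =
        X.card * (2 * (V - Λ)) + ∑ χ ∈ Y, 2 * ((χ a : ℂˣ) : ℂ).re * P χ := by
      rw [hNT, hXdiv]
      field_simp
      ring
    rw [e]
    refine (abs_add_le _ _).trans ?_
    have h1 : |(X.card : ℝ) * (2 * (V - Λ))| ≤ N * (2 * C1) := by
      rw [abs_mul, abs_mul, abs_two, abs_of_nonneg hXnn]
      have : (X.card : ℝ) * (2 * |V - Λ|) ≤ N * (2 * C1) :=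
        mul_le_mul hXle (by linarith) (by positivity) hNpos.le
      exact this
    linarith [hYpart]
  rw [← mul_sub, abs_mul, abs_of_pos hNpos] at hgoal
  have := le_of_mul_le_mul_left hgoal hNpos
  rw [hD] at this
  linarith

end Fourier

end Fermat.Agent.DS.Cheb
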