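import Mathlib
import Fermat.Agent.Frob.FixedCountAlt
import Fermat.Agent.Frob.Abstract

/-!
# A chosen Frobenius element at every rational prime, and counting conjugates

`M/ℚ` a Galois number field.  For every prime `p` we choose a prime `pAbove M p` of `𝓞 M` above
`p` and an arithmetic Frobenius `frobElt M p` at it.  For `p ∤ disc M`:

* `card_mul_idealCount_eq`: `#H · idealCount (M^H) p = #{y | y σ_p y⁻¹ ∈ H}`;
* `autToPow_frobElt`: `σ_p` acts on `m`-th roots of unity (`p ∤ m`) by `ζ ↦ ζ ^ p`;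
* `isFrob_iff`: `x` is a Frobenius at some prime over `p` iff `x` is conjugate to `σ_p`.
-/

set_option autoImplicit false
set_option linter.unusedSectionVars false

namespace Fermat.Agent.DS.Cheb

open NumberField
open scoped Pointwise
open Fermat.Agent.Frob (idealCount)

variable (M : Type*) [Field M] [NumberField M] [IsGalois ℚ M]

theorem exists_frob (p : Nat.Primes) :
    ∃ (P : Ideal (𝓞 M)) (σ : M ≃ₐ[ℚ] M), P.IsPrime ∧ ((p : ℕ) : 𝓞 M) ∈ P ∧
      IsArithFrobAt ℤ σ P := by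
  obtain ⟨P, hP, hpP⟩ := Fermat.Agent.Frob.asm_exists_prime_over M p.2
  have hfin := Fermat.Agent.Frob.fa_finite_quot M p.2 P hpP
  obtain ⟨σ, hσ⟩ := IsArithFrobAt.exists_of_isInvariant ℤ (M ≃ₐ[ℚ] M) P
  exact ⟨P, σ, hP, hpP, hσ⟩

/-- A chosen prime of `𝓞 M` above `p`. -/
noncomputable def pAbove (p : Nat.Primes) : Ideal (𝓞 M) := (exists_frob M p).choose

/-- A chosen arithmetic Frobenius at `pAbove M p`. -/
noncomputable def frobElt (p : Nat.Primes) : M ≃ₐ[ℚ] M := (exists_frob M p).choose_spec.choose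

instance pAbove_isPrime (p : Nat.Primes) : (pAbove M p).IsPrime :=
  (exists_frob M p).choose_spec.choose_spec.1

theorem natCast_mem_pAbove (p : Nat.Primes) : ((p : ℕ) : 𝓞 M) ∈ pAbove M p :=
  (exists_frob M p).choose_spec.choose_spec.2.1

theorem isArithFrobAt_frobElt (p : Nat.Primes) : IsArithFrobAt ℤ (frobElt M p) (pAbove M p) :=
  (exists_frob M p).choose_spec.choose_spec.2.2

/-- `#H · idealCount (M^H) p = #{y | y σ_p y⁻¹ ∈ H}` for `p ∤ disc M`. -/
theorem card_mul_idealCount_eq (H : Subgroup (M ≃ₐ[ℚ] M)) (p : Nat.Primes)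
    (hpd : ¬ (((p : ℕ) : ℤ)) ∣ NumberField.discr M) :
    Nat.card H * idealCount (IntermediateField.fixedField H) p =
      Nat.card {y : M ≃ₐ[ℚ] M // y * frobElt M p * y⁻¹ ∈ H} := by
  rw [Fermat.Agent.Frob.card_mul_idealCount_fixedField M H p.2 hpd (pAbove M p)
    (natCast_mem_pAbove M p)]
  exact Nat.card_congr (Equiv.subtypeEquivRight fun y =>
    Fermat.Agent.Frob.fa_stabilizer_le_iff M H p.2 hpd (pAbove M p) (natCast_mem_pAbove M p) _
      (isArithFrobAt_frobElt M p) y)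

/-- Every prime of `𝓞 M` above `p` is a conjugate of the chosen one. -/
theorem exists_smul_pAbove (p : Nat.Primes) (P : Ideal (𝓞 M)) [P.IsPrime]
    (hP : ((p : ℕ) : 𝓞 M) ∈ P) : ∃ g : M ≃ₐ[ℚ] M, P = g • pAbove M p := by
  have hunder : Ideal.under ℤ (pAbove M p) = Ideal.under ℤ P := by
    rw [Fermat.Agent.Frob.ur_under_eq M p.2 (pAbove M p) (natCast_mem_pAbove M p),
      Fermat.Agent.Frob.ur_under_eq M p.2 P hP]
  exact Algebra.IsInvariant.exists_smul_of_under_eq ℤ (𝓞 M) (M ≃ₐ[ℚ] M) (pAbove M p) P hunder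

/-- For `p ∤ disc M`, an element is a Frobenius at some prime above `p` iff it is conjugate to
the chosen Frobenius. -/
theorem isFrob_iff (p : Nat.Primes) (hpd : ¬ (((p : ℕ) : ℤ)) ∣ NumberField.discr M)
    (x : M ≃ₐ[ℚ] M) :
    (∃ P : Ideal (𝓞 M), P.IsPrime ∧ ((p : ℕ) : 𝓞 M) ∈ P ∧ IsArithFrobAt ℤ x P) ↔
      ∃ y : M ≃ₐ[ℚ] M, y * frobElt M p * y⁻¹ = x := by
  constructor
  · rintro ⟨P, hP, hpP, hx⟩
    obtain ⟨g, hg⟩ := exists_smul_pAbove M p P hpP
    refine ⟨g, ?_⟩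
    have h1 : IsArithFrobAt ℤ (g * frobElt M p * g⁻¹) (g • pAbove M p) :=
      (isArithFrobAt_frobElt M p).conj g
    rw [← hg] at h1
    have h2 := IsArithFrobAt.mul_inv_mem_inertia h1 hx
    rw [Fermat.Agent.Frob.inertia_eq_bot M p.2 hpd P hpP, Subgroup.mem_bot] at h2
    exact mul_inv_eq_one.mp h2
  · rintro ⟨y, rfl⟩
    refine ⟨y • pAbove M p, inferInstance, ?_, (isArithFrobAt_frobElt M p).conj y⟩
    exact Fermat.Agent.Frob.asm_natCast_mem_smul M (pAbove M p) (natCast_mem_pAbove M p) y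

variable {M}

/-- An arithmetic Frobenius at `P ∣ p` raises `m`-th roots of unity (`p ∤ m`) to the `p`-th
power. -/
theorem frob_apply_root {p : ℕ} (hp : p.Prime) (P : Ideal (𝓞 M)) [P.IsPrime]
    (hP : (p : 𝓞 M) ∈ P) (σ : M ≃ₐ[ℚ] M) (hσ : IsArithFrobAt ℤ σ P) {m : ℕ} (hpm : ¬ p ∣ m)
    {ζ : M} (hζ : ζ ^ m = 1) : σ ζ = ζ ^ p := by
  have hm0 : m ≠ 0 := by
    rintro rfl
    exact hpm (dvd_zero p)
  have hmP : (m : 𝓞 M) ∉ P := by
    intro hmP
    have hcop : Nat.Coprime p m := (Nat.Prime.coprime_iff_not_dvd hp).mpr hpm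
    have h1 : ((p.gcdA m * p + p.gcdB m * m : ℤ) : 𝓞 M) ∈ P := by
      push_cast
      exact P.add_mem (P.mul_mem_left _ hP) (P.mul_mem_left _ hmP)
    have h2 : (p.gcdA m * p + p.gcdB m * m : ℤ) = 1 := by
      have := Nat.gcd_eq_gcd_ab p m
      rw [hcop.gcd_eq_one] at this
      push_cast at this
      linarith
    rw [h2] at h1
    exact (Ideal.IsPrime.ne_top inferInstance) ((Ideal.eq_top_iff_one P).mpr (by simpa using h1))
  have hζint : IsIntegral ℤ ζ := by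
    refine IsIntegral.of_pow (Nat.pos_of_ne_zero hm0) ?_
    rw [hζ]
    exact isIntegral_one
  set ζ' : 𝓞 M := ⟨ζ, hζint⟩ with hζ'def
  have hζ' : ζ' ^ m = 1 := by
    apply RingOfIntegers.ext
    show ζ ^ m = ((1 : 𝓞 M) : M)
    rw [hζ]
    simp
  have h1 := AlgHom.IsArithFrobAt.apply_of_pow_eq_one hσ hζ' hmP
  rw [Fermat.Agent.Frob.ur_card_under M hp P hP] at h1
  have h3 := congrArg (fun y : 𝓞 M => (y : M)) h1
  exact h3

/-- The cyclotomic character of the chosen Frobenius at `p ∤ m` is `p mod m`. -/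
theorem autToPow_frobElt {m : ℕ} [NeZero m] {ζ : M} (hζ : IsPrimitiveRoot ζ m) (p : Nat.Primes)
    (hpm : ¬ (p : ℕ) ∣ m) :
    ((hζ.autToPow ℚ (frobElt M p) : (ZMod m)ˣ) : ZMod m) = ((p : ℕ) : ZMod m) := by
  have h1 := frob_apply_root p.2 (pAbove M p) (natCast_mem_pAbove M p) (frobElt M p)
    (isArithFrobAt_frobElt M p) hpm hζ.pow_eq_one
  have h2 := hζ.autToPow_spec ℚ (frobElt M p)
  rw [h1] at h2
  have h3 : ζ ^ ((p : ℕ) % m) = ζ ^ (p : ℕ) := by
    conv_rhs => rw [← Nat.mod_add_div (p : ℕ) m, pow_add, pow_mul, hζ.pow_eq_one, one_pow, mul_one]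
  rw [← h3] at h2
  have h4 := hζ.pow_inj (ZMod.val_lt _) (Nat.mod_lt _ (NeZero.pos m)) h2
  rw [← ZMod.natCast_zmod_val ((hζ.autToPow ℚ (frobElt M p) : (ZMod m)ˣ) : ZMod m), h4,
    ZMod.natCast_mod]

end Fermat.Agent.DS.Cheb
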