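import Mathlib
import Fermat.Agent.Frob.Bridge
import Fermat.Agent.Frob.Unram
import Fermat.Agent.DS.Cheb.FrobElt
import Fermat.Agent.DS.ChebHom

/-!
# CHEB-D6: `Gal(ℚ̄/ℚ)` / `ValuationSubring` forms of the symmetric Chebotarev theorem

The number-field core (weighted form, sums over the chosen Frobenius elements `frobElt L p` of a
Galois number field `L`) is taken as the hypothesis-shaped proposition `CoreStatement`.  From it
we derive

* `cheb_sym_GQ_weighted_of_core`: the weighted form for a finite Galois `K ⊆ ℚ̄`, with Frobenius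
  elements of the prelude (`ValuationSubring.IsFrobeniusAt`);
* `cheb_sym_GQ_of_core`: the set form;
* `chebSymK_of_core`: the proposition `ChebHom.ChebSymK` consumed by the glue layer.
-/

set_option autoImplicit false

namespace Fermat.Agent.DS.Cheb

open NumberField
open scoped Pointwise

local notation "Qbar" => AlgebraicClosure ℚ
local notation "GQ" => (AlgebraicClosure ℚ ≃ₐ[ℚ] AlgebraicClosure ℚ)

/-- The number-field core of the symmetric Chebotarev theorem, weighted form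
(the statement of `cheb_weighted_core`, for fields in `Type`). -/
def CoreStatement : Prop :=
  ∀ (L : Type) [Field L] [NumberField L] [IsGalois ℚ L] (f : (L ≃ₐ[ℚ] L) → ℝ),
    (∀ g, 0 ≤ f g) → (∀ g h, f (h * g * h⁻¹) = f g) → (∀ g, f g⁻¹ = f g) →
    ∀ (bad₀ : Finset ℕ) (ε : ℝ), 0 < ε →
    ∃ δ : ℝ, 0 < δ ∧ ∀ s : ℝ, 1 < s → s < 1 + δ → ∃ T : Finset Nat.Primes,
      (∀ p ∈ T, (p : ℕ) ∉ bad₀ ∧ ¬ (((p : ℕ) : ℤ)) ∣ NumberField.discr L) ∧
      ((∑ g : L ≃ₐ[ℚ] L, f g) / (Nat.card (L ≃ₐ[ℚ] L) : ℝ) - ε) * Real.log (1 / (s - 1)) ≤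
        ∑ p ∈ T, f (frobElt L p) * ((p : ℕ) : ℝ) ^ (-s)

/-- For `p ∤ disc K` there are a valuation subring of `ℚ̄` over `p` and a Frobenius element at it
restricting to the chosen Frobenius `frobElt K p` of `K`. -/
theorem exists_frob_data (K : IntermediateField ℚ Qbar) [NumberField K] [IsGalois ℚ K]
    (p : Nat.Primes) (hpd : ¬ (((p : ℕ) : ℤ)) ∣ NumberField.discr K) :
    ∃ (A : ValuationSubring Qbar) (σ : GQ), A.LiesOverPrime p ∧ A.IsFrobeniusAt σ p ∧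
      AlgEquiv.restrictNormalHom K σ = frobElt K p := by
  obtain ⟨A, σ, hA, hσ, hτ, -, -⟩ := Fermat.Agent.Frob.exists_isFrobeniusAt_stabilizer' K p.2 hpd
    (pAbove K p) (natCast_mem_pAbove K p)
  refine ⟨A, σ, hA, hσ, ?_⟩
  have h2 := IsArithFrobAt.mul_inv_mem_inertia hτ (isArithFrobAt_frobElt K p)
  rw [Fermat.Agent.Frob.inertia_eq_bot K p.2 hpd (pAbove K p) (natCast_mem_pAbove K p),
    Subgroup.mem_bot] at h2
  exact mul_inv_eq_one.mp h2

/-- **Symmetric Chebotarev, weighted `Gal(ℚ̄/ℚ)` form** (from the number-field core). -/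
theorem cheb_sym_GQ_weighted_of_core (hcore : CoreStatement) (K : IntermediateField ℚ Qbar)
    [FiniteDimensional ℚ K] [IsGalois ℚ K] (f : (K ≃ₐ[ℚ] K) → ℝ) (hf0 : ∀ g, 0 ≤ f g)
    (hconj : ∀ g h, f (h * g * h⁻¹) = f g) (hinv : ∀ g, f g⁻¹ = f g) (bad : Finset ℕ) (ε : ℝ)
    (hε : 0 < ε) :
    ∃ δ : ℝ, 0 < δ ∧ ∀ s : ℝ, 1 < s → s < 1 + δ →
      ∃ (T : Finset ℕ) (A : ℕ → ValuationSubring Qbar) (σ : ℕ → GQ),
      (∀ p ∈ T, p.Prime ∧ p ∉ bad ∧ (A p).LiesOverPrime p ∧ (A p).IsFrobeniusAt (σ p) p) ∧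
      ((∑ g : K ≃ₐ[ℚ] K, f g) / (Nat.card (K ≃ₐ[ℚ] K) : ℝ) - ε) * Real.log (1 / (s - 1)) ≤
        ∑ p ∈ T, f (AlgEquiv.restrictNormalHom K (σ p)) * (p : ℝ) ^ (-s) := by
  classical
  have hNF : NumberField K :=
    { to_charZero := inferInstance, to_finiteDimensional := inferInstance }
  have key : ∀ p : ℕ, ∃ (A : ValuationSubring Qbar) (σ : GQ), ∀ hp : p.Prime,
      ¬ ((p : ℤ)) ∣ NumberField.discr K →
      A.LiesOverPrime p ∧ A.IsFrobeniusAt σ p ∧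
        AlgEquiv.restrictNormalHom K σ = frobElt K ⟨p, hp⟩ := by
    intro p
    by_cases h : p.Prime ∧ ¬ ((p : ℤ)) ∣ NumberField.discr K
    · obtain ⟨A, σ, h1, h2, h3⟩ := exists_frob_data K ⟨p, h.1⟩ h.2
      exact ⟨A, σ, fun _ _ => ⟨h1, h2, h3⟩⟩
    · exact ⟨⊤, 1, fun hp hd => absurd ⟨hp, hd⟩ h⟩
  choose A σ hAσ using key
  obtain ⟨δ, hδ, H⟩ := hcore K f hf0 hconj hinv bad ε hε
  refine ⟨δ, hδ, fun s hs1 hs2 => ?_⟩
  obtain ⟨T, hT, hsum⟩ := H s hs1 hs2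
  set c : Nat.Primes → ℕ := fun p => (p : ℕ) with hc
  have hcinj : Function.Injective c := fun x y h => Subtype.ext h
  refine ⟨T.image c, A, σ, ?_, ?_⟩
  · intro p hp
    obtain ⟨q, hq, rfl⟩ := Finset.mem_image.mp hp
    obtain ⟨h1, h2⟩ := hT q hq
    obtain ⟨h3, h4, -⟩ := hAσ q q.2 h2
    exact ⟨q.2, h1, h3, h4⟩
  · rw [Finset.sum_image (fun x _ y _ h => hcinj h)]
    refine hsum.trans (le_of_eq ?_)
    apply Finset.sum_congr rfl
    intro q hq
    obtain ⟨h1, h2⟩ := hT q hq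
    rw [(hAσ q q.2 h2).2.2]
    rfl

/-- **Symmetric Chebotarev, set form for `Gal(ℚ̄/ℚ)`** (from the number-field core). -/
theorem cheb_sym_GQ_of_core (hcore : CoreStatement) (K : IntermediateField ℚ Qbar)
    [FiniteDimensional ℚ K] [IsGalois ℚ K] (S : Set (K ≃ₐ[ℚ] K))
    (hconj : ∀ g h, g ∈ S → h * g * h⁻¹ ∈ S) (hinv : ∀ g ∈ S, g⁻¹ ∈ S) (bad : Finset ℕ) (ε : ℝ)
    (hε : 0 < ε) :
    ∃ δ : ℝ, 0 < δ ∧ ∀ s : ℝ, 1 < s → s < 1 + δ → ∃ T : Finset ℕ,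
      (∀ p ∈ T, p.Prime ∧ p ∉ bad ∧ ∃ (A : ValuationSubring Qbar) (σ : GQ),
        A.LiesOverPrime p ∧ A.IsFrobeniusAt σ p ∧ AlgEquiv.restrictNormalHom K σ ∈ S) ∧
      ((Nat.card S : ℝ) / (Nat.card (K ≃ₐ[ℚ] K) : ℝ) - ε) * Real.log (1 / (s - 1)) ≤
        ∑ p ∈ T, (p : ℝ) ^ (-s) := by
  classical
  set f : (K ≃ₐ[ℚ] K) → ℝ := fun g => if g ∈ S then 1 else 0 with hf
  have hf0 : ∀ g, 0 ≤ f g := fun g => by
    simp only [hf]; split_ifs <;> norm_num
  have hconj' : ∀ g h, f (h * g * h⁻¹) = f g := fun g h => by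
    have hiff : h * g * h⁻¹ ∈ S ↔ g ∈ S := by
      constructor
      · intro h1
        have h2 := hconj _ h⁻¹ h1
        have h3 : h⁻¹ * (h * g * h⁻¹) * h⁻¹⁻¹ = g := by group
        rwa [h3] at h2
      · exact hconj g h
    simp only [hf, hiff]
  have hinv' : ∀ g, f g⁻¹ = f g := fun g => by
    have hiff : g⁻¹ ∈ S ↔ g ∈ S := by
      constructor
      · intro h1
        have h2 := hinv _ h1
        rwa [inv_inv] at h2
      · exact hinv g
    simp only [hf, hiff]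
  have hsumf : (∑ g : K ≃ₐ[ℚ] K, f g) = (Nat.card S : ℝ) := by
    simp only [hf]
    rw [Finset.sum_boole, Nat.card_eq_fintype_card, Fintype.card_subtype]
  obtain ⟨δ, hδ, H⟩ := cheb_sym_GQ_weighted_of_core hcore K f hf0 hconj' hinv' bad ε hε
  refine ⟨δ, hδ, fun s hs1 hs2 => ?_⟩
  obtain ⟨T, A, σ, hT, hsum⟩ := H s hs1 hs2
  refine ⟨T.filter (fun p => AlgEquiv.restrictNormalHom K (σ p) ∈ S), ?_, ?_⟩
  · intro p hp
    obtain ⟨hpT, hpS⟩ := Finset.mem_filter.mp hp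
    obtain ⟨h1, h2, h3, h4⟩ := hT p hpT
    exact ⟨h1, h2, A p, σ p, h3, h4, hpS⟩
  · rw [hsumf] at hsum
    refine hsum.trans (le_of_eq ?_)
    rw [Finset.sum_filter]
    apply Finset.sum_congr rfl
    intro p _
    simp only [hf]
    split_ifs <;> simp

/-- The proposition consumed by the glue layer (`ChebHom.ChebSymK`) follows from the core. -/
theorem chebSymK_of_core (hcore : CoreStatement) : Fermat.Agent.DS.ChebHom.ChebSymK :=
  fun K _ _ S hconj hinv bad ε hε => cheb_sym_GQ_of_core hcore K S hconj hinv bad ε hε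

end Fermat.Agent.DS.Cheb
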