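/-
DS / CHEB-D2a: norm lemmas for the ray-class character `χ ∘ N`.

* `absNorm_coprime_of_isCoprime` : an ideal coprime to `(m)` has absolute norm prime to `m`;
* `norm_modEq_one_of_sub_mem` : `a ≡ 1 mod (m)` implies `N(a) ≡ 1 mod m`;
* `norm_pos_of_forall_real_pos` : a nonzero integer positive at all real places has positive
  norm;
* `absNorm_span_modEq_one` : the norm of the ideal generated by a totally positive
  `a ≡ 1 mod (m)` is `≡ 1 mod m`.
-/
import Mathlib
import Fermat.Agent.CFT.Ray.RayZetaBdd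

set_option autoImplicit false

namespace Fermat.Agent.DS.Cheb

open NumberField

variable {E : Type*} [Field E] [NumberField E]

/-- A prime number is not a unit of the ring of integers. -/
theorem not_isUnit_natCast_prime {p : ℕ} (hp : p.Prime) : ¬ IsUnit ((p : ℕ) : 𝓞 E) := by
  intro hu
  obtain ⟨u, hu⟩ := hu.exists_right_inv
  have h1 : ((p : ℕ) : E) * (u : E) = 1 := by
    have := congrArg (fun z : 𝓞 E => (z : E)) hu
    simpa using this
  have hp0 : ((p : ℕ) : E) ≠ 0 := by
    exact_mod_cast hp.ne_zero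
  have h2 : (u : E) = algebraMap ℚ E ((p : ℚ)⁻¹) := by
    rw [map_inv₀, map_natCast]
    exact eq_inv_of_mul_eq_one_right h1
  have hint : IsIntegral ℤ (u : E) := RingOfIntegers.isIntegral_coe u
  rw [h2] at hint
  have hint' : IsIntegral ℤ ((p : ℚ)⁻¹) :=
    (isIntegral_algebraMap_iff (algebraMap ℚ E).injective).mp hint
  obtain ⟨y, hy⟩ := IsIntegrallyClosed.isIntegral_iff.mp hint'
  have hpq : ((p : ℕ) : ℚ) ≠ 0 := by exact_mod_cast hp.ne_zero
  have h3 : (y : ℚ) * (p : ℚ) = 1 := by
    have : (algebraMap ℤ ℚ y) = (y : ℚ) := rfl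
    rw [← this, hy, inv_mul_cancel₀ hpq]
  have h4 : y * (p : ℤ) = 1 := by exact_mod_cast h3
  have h5 : ((p : ℕ) : ℤ) ∣ 1 := ⟨y, by rw [mul_comm]; exact h4.symm⟩
  have h6 : p ∣ 1 := by exact_mod_cast h5
  exact hp.one_lt.ne' (Nat.dvd_one.mp h6)

/-- An ideal coprime to `(m)` has absolute norm prime to `m`. -/
theorem absNorm_coprime_of_isCoprime (m : ℕ) (I : Ideal (𝓞 E))
    (h : IsCoprime I (Ideal.span {(m : 𝓞 E)})) : (Ideal.absNorm I).Coprime m := by
  by_contra hne
  obtain ⟨p, hp, hpn, hpm⟩ := Nat.Prime.not_coprime_iff_dvd.mp hne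
  have := Fact.mk hp
  obtain ⟨x, hx, y, hy, hxy⟩ := Ideal.isCoprime_iff_exists.mp h
  obtain ⟨c, rfl⟩ := Ideal.mem_span_singleton'.mp hy
  obtain ⟨m', rfl⟩ := hpm
  have key : ∀ z : 𝓞 E, (p : 𝓞 E) * z ∈ I → z ∈ I := by
    intro z hz
    have h1 : z = x * z + c * (m' : 𝓞 E) * ((p : 𝓞 E) * z) := by
      have h2 : z = (x + c * ((p * m' : ℕ) : 𝓞 E)) * z := by rw [hxy, one_mul]
      conv_lhs => rw [h2]
      push_cast
      ring
    rw [h1]
    exact I.add_mem (I.mul_mem_right _ hx) (I.mul_mem_left _ hz)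
  by_cases hI : I = ⊥
  · subst hI
    have hx0 : x = 0 := by simpa using hx
    rw [hx0, zero_add] at hxy
    apply not_isUnit_natCast_prime (E := E) hp
    refine IsUnit.of_mul_eq_one (c * (m' : 𝓞 E)) ?_
    rw [← hxy]
    push_cast
    ring
  · have : Finite (𝓞 E ⧸ I) := Ideal.finiteQuotientOfFreeOfNeBot I hI
    have hcard : Nat.card (𝓞 E ⧸ I) = Ideal.absNorm I := rfl
    obtain ⟨z, hz⟩ := exists_prime_addOrderOf_dvd_card' p (hcard ▸ hpn)
    obtain ⟨w, rfl⟩ := Ideal.Quotient.mk_surjective z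
    have h1 : (p : 𝓞 E) * w ∈ I := by
      rw [← Ideal.Quotient.eq_zero_iff_mem, map_mul, map_natCast, ← nsmul_eq_mul]
      conv_lhs => rw [← hz]
      exact addOrderOf_nsmul_eq_zero _
    have h3 : (Ideal.Quotient.mk I w) = 0 := Ideal.Quotient.eq_zero_iff_mem.mpr (key w h1)
    rw [h3, addOrderOf_zero] at hz
    exact hp.one_lt.ne hz

/-- `a ≡ 1 mod (m)` implies `N(a) ≡ 1 mod m`. -/
theorem norm_modEq_one_of_sub_mem (m : ℕ) (a : 𝓞 E) (ha : a - 1 ∈ Ideal.span {(m : 𝓞 E)}) :
    Algebra.norm ℤ a ≡ 1 [ZMOD m] := by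
  classical
  obtain ⟨b, hb⟩ := Ideal.mem_span_singleton'.mp ha
  have ha' : a = 1 + (m : 𝓞 E) * b := by
    rw [mul_comm, hb]
    ring
  have h1 : ((Algebra.norm ℤ a : ℤ) : ZMod m) = 1 := by
    rw [Algebra.norm_eq_matrix_det (RingOfIntegers.basis E)]
    show (Int.castRingHom (ZMod m))
      (Algebra.leftMulMatrix (RingOfIntegers.basis E) a).det = 1
    rw [RingHom.map_det]
    have h2 : (Int.castRingHom (ZMod m)).mapMatrix
        (Algebra.leftMulMatrix (RingOfIntegers.basis E) a) = 1 := by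
      rw [ha', map_add, map_one, map_mul, map_natCast, map_add, map_one, map_mul, map_natCast]
      have h3 : ((m : ℕ) : Matrix (Module.Free.ChooseBasisIndex ℤ (𝓞 E))
          (Module.Free.ChooseBasisIndex ℤ (𝓞 E)) (ZMod m)) = 0 := by
        rw [← map_natCast (algebraMap (ZMod m) (Matrix (Module.Free.ChooseBasisIndex ℤ (𝓞 E))
          (Module.Free.ChooseBasisIndex ℤ (𝓞 E)) (ZMod m))) m, ZMod.natCast_self, map_zero]
      rw [h3, zero_mul, add_zero]
    rw [h2, Matrix.det_one]
  rw [← ZMod.intCast_eq_intCast_iff, h1, Int.cast_one]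

/-- A nonzero algebraic integer which is positive at all real places has positive norm. -/
theorem norm_pos_of_forall_real_pos (a : 𝓞 E) (ha0 : a ≠ 0)
    (hpos : ∀ w : {w : InfinitePlace E // w.IsReal},
      0 < InfinitePlace.embedding_of_isReal w.2 (a : E)) : 0 < Algebra.norm ℤ a := by
  classical
  have hx0 : (a : E) ≠ 0 := RingOfIntegers.coe_ne_zero_iff.mpr ha0
  have key : ∀ w : InfinitePlace E, ∃ r : ℝ, 0 < r ∧
      ∏ φ ∈ Finset.univ.filter (fun φ : E →+* ℂ => InfinitePlace.mk φ = w), φ (a : E) =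
        (r : ℂ) := by
    intro w
    have hfilter : Finset.univ.filter (fun φ : E →+* ℂ => InfinitePlace.mk φ = w) =
        {w.embedding, ComplexEmbedding.conjugate w.embedding} := by
      ext φ
      simp only [Finset.mem_filter, Finset.mem_univ, true_and, Finset.mem_insert,
        Finset.mem_singleton]
      constructor
      · intro h
        have h' : InfinitePlace.mk φ = InfinitePlace.mk w.embedding := by
          rw [h, InfinitePlace.mk_embedding]
        rcases InfinitePlace.mk_eq_iff.mp h' with h1 | h1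
        · exact Or.inl h1
        · right
          rw [← h1]
          exact RingHom.ext fun x => by simp
      · rintro (rfl | rfl)
        · exact InfinitePlace.mk_embedding w
        · rw [InfinitePlace.mk_conjugate_eq, InfinitePlace.mk_embedding]
    rw [hfilter]
    by_cases hw : w.IsReal
    · have hconj : ComplexEmbedding.conjugate w.embedding = w.embedding :=
        ComplexEmbedding.isReal_iff.mp (InfinitePlace.isReal_iff.mp hw)
      rw [hconj, Finset.pair_eq_singleton, Finset.prod_singleton]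
      exact ⟨_, hpos ⟨w, hw⟩, (InfinitePlace.embedding_of_isReal_apply hw (a : E)).symm⟩
    · have hne : w.embedding ≠ ComplexEmbedding.conjugate w.embedding := by
        intro h
        exact hw (InfinitePlace.isReal_iff.mpr (ComplexEmbedding.isReal_iff.mpr h.symm))
      rw [Finset.prod_pair hne]
      refine ⟨Complex.normSq (w.embedding (a : E)),
        Complex.normSq_pos.mpr (by rw [Ne, map_eq_zero]; exact hx0), ?_⟩
      rw [ComplexEmbedding.conjugate_coe_eq, Complex.mul_conj]
  choose r hr hprod using key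
  have hnorm : (algebraMap ℚ ℂ (Algebra.norm ℚ (a : E))) =
      ((∏ w : InfinitePlace E, r w : ℝ) : ℂ) := by
    rw [Algebra.norm_eq_prod_embeddings ℚ ℂ (a : E),
      ← Fintype.prod_equiv (RingHom.equivRatAlgHom E ℂ) (fun f : E →+* ℂ => f (a : E))
        (fun φ : E →ₐ[ℚ] ℂ => φ (a : E)) (fun _ => rfl),
      ← Finset.prod_fiberwise Finset.univ InfinitePlace.mk (fun φ : E →+* ℂ => φ (a : E)),
      Complex.ofReal_prod]
    exact Finset.prod_congr rfl fun w _ => hprod w
  have hR : 0 < ∏ w : InfinitePlace E, r w := Finset.prod_pos fun w _ => hr w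
  have h1 : ((Algebra.norm ℚ (a : E) : ℚ) : ℝ) = ∏ w : InfinitePlace E, r w := by
    rw [eq_ratCast] at hnorm
    exact_mod_cast hnorm
  have hq : (0 : ℚ) < Algebra.norm ℚ (a : E) := by
    have h2 : (0 : ℝ) < ((Algebra.norm ℚ (a : E) : ℚ) : ℝ) := h1 ▸ hR
    exact_mod_cast h2
  have hz : ((Algebra.norm ℤ a : ℤ) : ℚ) = Algebra.norm ℚ (a : E) := Algebra.coe_norm_int a
  rw [← hz] at hq
  exact_mod_cast hq

/-- The norm of the ideal generated by a nonzero totally positive `a ≡ 1 mod (m)` is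
`≡ 1 mod m`. -/
theorem absNorm_span_modEq_one (m : ℕ) (a : 𝓞 E)
    (ha : a ∈ Fermat.Agent.CFT.Ray.rayGen E (Ideal.span {(m : 𝓞 E)}) Set.univ) (ha0 : a ≠ 0) :
    Ideal.absNorm (Ideal.span {a}) ≡ 1 [MOD m] := by
  rw [Ideal.absNorm_span_singleton]
  have h1 := norm_modEq_one_of_sub_mem m a ha.1
  have h2 := norm_pos_of_forall_real_pos a ha0 (fun w => ha.2 w (Set.mem_univ w))
  rw [← Int.natCast_modEq_iff, Int.natAbs_of_nonneg h2.le, Nat.cast_one]
  exact h1

end Fermat.Agent.DS.Cheb
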