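import Mathlib
import Fermat.Agent.CFT.Ray.RaySecondIneq
import Fermat.Agent.DS.Cheb.NormLemmas
import Fermat.Agent.DS.Cheb.Abstract

/-!
# Dirichlet characters composed with the absolute norm: bounded prime sums

`E` a number field, `m ≥ 1`, `χ` a character of `(ℤ/m)ˣ` with `χ(N I) ≠ 1` for some ideal `I`
coprime to `m`.  Then `∑_p Re χ(p) · a_E(p) · p^(-s)` is bounded above on `(1, 2]`, where
`a_E(p) = idealCount E p` is the number of ideals of norm `p`.

The input is the boundedness of the ray class `L`-series of a nontrivial character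
(`Fermat.Agent.CFT.Ray`).
-/

set_option autoImplicit false
set_option linter.unusedSectionVars false

namespace Fermat.Agent.DS.Cheb

open NumberField IsDedekindDomain Ideal
open Fermat.Agent.CFT.Ray
open Fermat.Agent.Lib.Frob (wt pw degOne)

section General

variable {E : Type*} [Field E] [NumberField E] {m : Ideal (𝓞 E)}
  {T : Set {w : InfinitePlace E // w.IsReal}}

theorem nc_norm_rayTerm_le (ψ : RayClassGroup E m T →* ℂˣ) (s : ℝ)
    (v : HeightOneSpectrum (𝓞 E)) : ‖rayTerm E m T ψ s v.asIdeal‖ ≤ pw E s v :=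
  norm_rayTerm_le ψ s v.asIdeal

theorem nc_summable_re_rayTerm (ψ : RayClassGroup E m T →* ℂˣ) {s : ℝ} (hs : 1 < s) :
    Summable fun v : HeightOneSpectrum (𝓞 E) => (rayTerm E m T ψ s v.asIdeal).re := by
  refine Summable.of_norm_bounded (Fermat.Agent.Lib.Frob.summable_pw E hs) (fun v => ?_)
  rw [Real.norm_eq_abs]
  exact (Complex.abs_re_le_norm _).trans (nc_norm_rayTerm_le ψ s v)

/-- `Re z - ‖z‖² ≤ -log ‖1 - z‖` for `‖z‖ ≤ 1/2`. -/
theorem nc_re_sub_sq_le {z : ℂ} (hz : ‖z‖ ≤ 1 / 2) : z.re - ‖z‖ ^ 2 ≤ -Real.log ‖1 - z‖ := by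
  have h1 : ‖-z‖ < 1 := by rw [norm_neg]; linarith
  have h2 := Complex.norm_log_one_add_sub_self_le h1
  rw [norm_neg] at h2
  have h3 : ‖z‖ ^ 2 * (1 - ‖z‖)⁻¹ / 2 ≤ ‖z‖ ^ 2 := by
    have h4 : (1 - ‖z‖)⁻¹ ≤ 2 := by
      rw [inv_le_comm₀ (by linarith) (by norm_num)]
      linarith
    have h5 : 0 ≤ ‖z‖ ^ 2 := by positivity
    nlinarith
  have h6 : (Complex.log (1 + -z) - -z).re ≤ ‖z‖ ^ 2 :=
    (Complex.re_le_norm _).trans (h2.trans h3)
  rw [Complex.sub_re, Complex.neg_re, Complex.log_re, ← sub_eq_add_neg] at h6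
  linarith

/-- For a nontrivial ray class character the real part of the prime sum is bounded above. -/
theorem ray_char_re_tsum_le (hm : m ≠ ⊥) (ψ : RayClassGroup E m T →* ℂˣ) (hψ : ψ ≠ 1) :
    ∃ C : ℝ, ∀ s : ℝ, 1 < s → s ≤ 2 →
      ∑' v : HeightOneSpectrum (𝓞 E), (rayTerm E m T ψ s v.asIdeal).re ≤ C := by
  classical
  let _ : Fintype (RayClassGroup E m T) := Fintype.ofFinite _
  choose Bf hBf using (fun q => rayPartZeta_sub_bounded hm T q 1)
  set B' : ℝ := max 1 (∑ q : RayClassGroup E m T, Bf q) with hB'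
  have hB'1 : (1 : ℝ) ≤ B' := le_max_left _ _
  refine ⟨Real.log B' + Fermat.Agent.Lib.Frob.Qc E, fun s hs1 hs2 => ?_⟩
  obtain ⟨hsum, hexp⟩ := rayL_euler ψ hs1
  have hposL : 0 < ‖rayL E m T ψ s‖ := by
    rw [hexp]
    exact Real.exp_pos _
  have hle : ‖rayL E m T ψ s‖ ≤ B' := by
    refine (norm_rayL_le ψ hψ hs1).trans (le_trans ?_ (le_max_right _ _))
    exact Finset.sum_le_sum fun q _ => hBf q s hs1 hs2
  have hlog : ∑' v : HeightOneSpectrum (𝓞 E), -Real.log ‖1 - rayTerm E m T ψ s v.asIdeal‖ ≤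
      Real.log B' := by
    have h1 := Real.log_le_log hposL hle
    rwa [hexp, Real.log_exp] at h1
  have hpt : ∀ v : HeightOneSpectrum (𝓞 E), (rayTerm E m T ψ s v.asIdeal).re ≤
      -Real.log ‖1 - rayTerm E m T ψ s v.asIdeal‖ + pw E 2 v := by
    intro v
    have hz : ‖rayTerm E m T ψ s v.asIdeal‖ ≤ 1 / 2 :=
      (nc_norm_rayTerm_le ψ s v).trans (Fermat.Agent.Lib.Frob.pw_le_half hs1.le v)
    have h1 := nc_re_sub_sq_le hz
    have h2 : ‖rayTerm E m T ψ s v.asIdeal‖ ^ 2 ≤ pw E 2 v := by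
      refine le_trans ?_ (Fermat.Agent.Lib.Frob.pw_sq_le hs1.le v)
      exact pow_le_pow_left₀ (norm_nonneg _) (nc_norm_rayTerm_le ψ s v) 2
    linarith
  have hQ : Summable (pw E 2) := Fermat.Agent.Lib.Frob.summable_pw E (by norm_num)
  calc ∑' v : HeightOneSpectrum (𝓞 E), (rayTerm E m T ψ s v.asIdeal).re
      ≤ ∑' v : HeightOneSpectrum (𝓞 E),
          (-Real.log ‖1 - rayTerm E m T ψ s v.asIdeal‖ + pw E 2 v) :=
        Summable.tsum_le_tsum hpt (nc_summable_re_rayTerm ψ hs1) (hsum.add hQ)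
    _ = ∑' v : HeightOneSpectrum (𝓞 E), -Real.log ‖1 - rayTerm E m T ψ s v.asIdeal‖ +
          Fermat.Agent.Lib.Frob.Qc E := by
        rw [hsum.tsum_add hQ]
        rfl
    _ ≤ Real.log B' + Fermat.Agent.Lib.Frob.Qc E := by linarith

end General

section Regroup

open Fermat.Agent.Lib.Frob (normPrime)

variable (K : Type*) [Field K] [NumberField K]

theorem nc_summable_weighted (g : ℕ → ℝ) (hg : ∀ n, |g n| ≤ 1) {s : ℝ} (hs : 1 < s) :
    Summable fun v : HeightOneSpectrum (𝓞 K) => g (absNorm v.asIdeal) * pw K s v := by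
  refine Summable.of_norm_bounded (Fermat.Agent.Lib.Frob.summable_pw K hs) (fun v => ?_)
  rw [norm_mul, Real.norm_eq_abs, Real.norm_of_nonneg (Fermat.Agent.Lib.Frob.pw_nonneg s v)]
  calc |g (absNorm v.asIdeal)| * pw K s v ≤ 1 * pw K s v :=
        mul_le_mul_of_nonneg_right (hg _) (Fermat.Agent.Lib.Frob.pw_nonneg s v)
    _ = pw K s v := one_mul _

theorem nc_tsum_fibre_weighted (g : ℕ → ℝ) (s : ℝ) (p : Nat.Primes) :
    ∑' 𝔭 : {𝔭 : ↥(degOne K) // normPrime K 𝔭 = p}, g (absNorm 𝔭.1.1.asIdeal) * pw K s 𝔭.1.1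
      = g p * ((Fermat.Agent.Frob.idealCount K p : ℝ) * ((p : ℕ) : ℝ) ^ (-s)) := by
  have h1 : ∀ 𝔭 : {𝔭 : ↥(degOne K) // normPrime K 𝔭 = p},
      g (absNorm 𝔭.1.1.asIdeal) * pw K s 𝔭.1.1 = g p * pw K s 𝔭.1.1 := by
    intro 𝔭
    have : absNorm 𝔭.1.1.asIdeal = (p : ℕ) := congrArg Subtype.val 𝔭.2
    rw [this]
  rw [tsum_congr h1, tsum_mul_left, Fermat.Agent.Lib.Frob.tsum_fibre_normPrime]

/-- Weighted regrouping of the sum over degree-one primes by the norm. -/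
theorem nc_tsum_degOne_weighted (g : ℕ → ℝ) (hg : ∀ n, |g n| ≤ 1) {s : ℝ} (hs : 1 < s) :
    Summable (fun p : Nat.Primes =>
      g p * ((Fermat.Agent.Frob.idealCount K p : ℝ) * ((p : ℕ) : ℝ) ^ (-s))) ∧
    ∑' 𝔭 : ↥(degOne K), g (absNorm 𝔭.1.asIdeal) * pw K s 𝔭.1
      = ∑' p : Nat.Primes, g p * ((Fermat.Agent.Frob.idealCount K p : ℝ) * ((p : ℕ) : ℝ) ^ (-s)) := by
  have hS : Summable (fun x : (Σ p : Nat.Primes, {𝔭 : ↥(degOne K) // normPrime K 𝔭 = p}) =>
      g (absNorm x.2.1.1.asIdeal) * pw K s x.2.1.1) := by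
    have h := (nc_summable_weighted K g hg hs).subtype (degOne K)
    have h2 := ((Equiv.sigmaFiberEquiv (normPrime K)).summable_iff
      (f := fun 𝔭 : ↥(degOne K) => g (absNorm 𝔭.1.asIdeal) * pw K s 𝔭.1)).mpr h
    exact h2
  constructor
  · have h2 := hS.sigma
    simp_rw [nc_tsum_fibre_weighted] at h2
    exact h2
  · rw [← (Equiv.sigmaFiberEquiv (normPrime K)).tsum_eq
      (fun 𝔭 : ↥(degOne K) => g (absNorm 𝔭.1.asIdeal) * pw K s 𝔭.1)]
    have he : (fun c => g (absNorm ((Equiv.sigmaFiberEquiv (normPrime K)) c).1.asIdeal) *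
        pw K s ((Equiv.sigmaFiberEquiv (normPrime K)) c).1) =
        (fun x : (Σ p : Nat.Primes, {𝔭 : ↥(degOne K) // normPrime K 𝔭 = p}) =>
          g (absNorm x.2.1.1.asIdeal) * pw K s x.2.1.1) := by
      funext x
      rfl
    rw [he, Summable.tsum_sigma' (fun p => Summable.of_finite) hS]
    simp_rw [nc_tsum_fibre_weighted]

/-- The weighted sum over rational primes is bounded by the weighted sum over all primes of `K`
plus a constant. -/
theorem nc_tsum_primes_le (g : ℕ → ℝ) (hg : ∀ n, |g n| ≤ 1) {s : ℝ} (hs : 1 < s) :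
    ∑' p : Nat.Primes, g p * ((Fermat.Agent.Frob.idealCount K p : ℝ) * ((p : ℕ) : ℝ) ^ (-s)) ≤
      ∑' v : HeightOneSpectrum (𝓞 K), g (absNorm v.asIdeal) * pw K s v +
        Fermat.Agent.Lib.Frob.Dc K := by
  have hsum := nc_summable_weighted K g hg hs
  rw [← (nc_tsum_degOne_weighted K g hg hs).2,
    ← hsum.tsum_subtype_add_tsum_subtype_compl (degOne K)]
  have h1 : -(Fermat.Agent.Lib.Frob.Dc K) ≤
      ∑' 𝔭 : ↥(degOne K)ᶜ, g (absNorm 𝔭.1.asIdeal) * pw K s 𝔭.1 := by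
    have h2 := Fermat.Agent.Lib.Frob.tsum_pw_not_degOne_le K hs.le
    have h3 : ∑' 𝔭 : ↥(degOne K)ᶜ, -(pw K s 𝔭.1) ≤
        ∑' 𝔭 : ↥(degOne K)ᶜ, g (absNorm 𝔭.1.asIdeal) * pw K s 𝔭.1 := by
      refine Summable.tsum_le_tsum (fun 𝔭 => ?_)
        ((Fermat.Agent.Lib.Frob.summable_pw_subtype K _ hs).neg) (hsum.subtype _)
      have := (abs_le.mp (hg (absNorm 𝔭.1.asIdeal))).1
      have hp := Fermat.Agent.Lib.Frob.pw_nonneg s 𝔭.1
      nlinarith
    rw [tsum_neg] at h3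
    linarith
  linarith

end Regroup

section NormClass

variable (E : Type*) [Field E] [NumberField E] (m : ℕ) [NeZero m]

theorem nc_span_ne_bot : Ideal.span {(m : 𝓞 E)} ≠ ⊥ := by
  rw [Ne, Ideal.span_singleton_eq_bot]
  exact_mod_cast NeZero.ne m

/-- An ideal whose norm is coprime to `m` is coprime to `(m)`. -/
theorem isCoprime_of_absNorm_coprime (I : Ideal (𝓞 E)) (h : (absNorm I).Coprime m) :
    IsCoprime I (Ideal.span {(m : 𝓞 E)}) := by
  rw [Ideal.isCoprime_iff_exists]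
  have h1 : ((absNorm I : ℕ) : 𝓞 E) ∈ I := Ideal.absNorm_mem I
  have h2 : ((absNorm I).gcdA m * (absNorm I : ℤ) + (absNorm I).gcdB m * (m : ℤ) : ℤ) = 1 := by
    have := Nat.gcd_eq_gcd_ab (absNorm I) m
    rw [h.gcd_eq_one] at this
    push_cast at this
    linarith
  refine ⟨(((absNorm I).gcdA m : ℤ) : 𝓞 E) * ((absNorm I : ℕ) : 𝓞 E), I.mul_mem_left _ h1,
    (((absNorm I).gcdB m : ℤ) : 𝓞 E) * (m : 𝓞 E),
    Ideal.mul_mem_left _ _ (Ideal.mem_span_singleton_self _), ?_⟩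
  have h3 := congrArg (Int.cast : ℤ → 𝓞 E) h2
  push_cast at h3
  exact h3

/-- The class of the absolute norm of an ideal coprime to `m`. -/
noncomputable def normClassHom : coprimeIdeals E (Ideal.span {(m : 𝓞 E)}) →* (ZMod m)ˣ where
  toFun I := ZMod.unitOfCoprime (absNorm (I : Ideal (𝓞 E)))
    (absNorm_coprime_of_isCoprime m I.1 I.2.2)
  map_one' := by
    apply Units.ext
    rw [ZMod.coe_unitOfCoprime]
    simp
  map_mul' I J := by
    apply Units.ext
    rw [Units.val_mul, ZMod.coe_unitOfCoprime, ZMod.coe_unitOfCoprime, ZMod.coe_unitOfCoprime]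
    simp

theorem coe_normClassHom (I : coprimeIdeals E (Ideal.span {(m : 𝓞 E)})) :
    ((normClassHom E m I : (ZMod m)ˣ) : ZMod m) = (absNorm (I : Ideal (𝓞 E)) : ZMod m) :=
  ZMod.coe_unitOfCoprime (absNorm (I : Ideal (𝓞 E))) (absNorm_coprime_of_isCoprime m I.1 I.2.2)

theorem normClassHom_span (a : 𝓞 E) (ha : a ∈ rayGen E (Ideal.span {(m : 𝓞 E)}) Set.univ)
    (ha0 : a ≠ 0) :
    normClassHom E m ⟨Ideal.span {a}, span_mem_coprimeIdeals ha ha0⟩ = 1 := by
  apply Units.ext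
  rw [coe_normClassHom, Units.val_one]
  have h := (ZMod.natCast_eq_natCast_iff _ _ _).mpr (absNorm_span_modEq_one m a ha ha0)
  simpa using h

/-- The norm class as a character of the ray class group modulo `m ∞`. -/
noncomputable def normClassRay :
    RayClassGroup E (Ideal.span {(m : 𝓞 E)}) Set.univ →* (ZMod m)ˣ :=
  rayLift (normClassHom E m) (normClassHom_span E m)

theorem normClassRay_rayMk (I : coprimeIdeals E (Ideal.span {(m : 𝓞 E)})) :
    normClassRay E m (rayMk E _ _ I) = normClassHom E m I :=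
  rayLift_rayMk _ _ I

variable {m} in
/-- `Re χ(n mod m)` for `n` coprime to `m`, and `0` otherwise. -/
noncomputable def charWeight (χ : (ZMod m)ˣ →* ℂˣ) (n : ℕ) : ℝ :=
  if h : n.Coprime m then ((χ (ZMod.unitOfCoprime n h) : ℂˣ) : ℂ).re else 0

variable {m} in
theorem abs_charWeight_le (χ : (ZMod m)ˣ →* ℂˣ) (n : ℕ) : |charWeight χ n| ≤ 1 := by
  unfold charWeight
  split_ifs with h
  · exact ch_abs_re_le χ _
  · simp

theorem re_rayTerm_normChar (χ : (ZMod m)ˣ →* ℂˣ) (s : ℝ) (v : HeightOneSpectrum (𝓞 E)) :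
    (rayTerm E (Ideal.span {(m : 𝓞 E)}) Set.univ (χ.comp (normClassRay E m)) s v.asIdeal).re =
      charWeight χ (absNorm v.asIdeal) * pw E s v := by
  by_cases h : v.asIdeal ∈ coprimeIdeals E (Ideal.span {(m : 𝓞 E)})
  · rw [rayTerm_of_mem _ s h, Complex.re_mul_ofReal, MonoidHom.comp_apply, normClassRay_rayMk]
    have hc : (absNorm v.asIdeal).Coprime m := absNorm_coprime_of_isCoprime m _ h.2
    unfold charWeight
    rw [dif_pos hc]
    rfl
  · rw [rayTerm_of_notMem _ s h, Complex.zero_re]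
    have hnc : ¬ (absNorm v.asIdeal).Coprime m := by
      intro hc
      exact h ⟨v.ne_bot, isCoprime_of_absNorm_coprime E m _ hc⟩
    unfold charWeight
    rw [dif_neg hnc, zero_mul]

/-- **Bounded prime sums for norm characters.** -/
theorem normChar_primeSum_le (χ : (ZMod m)ˣ →* ℂˣ)
    (hχ : ∃ I : coprimeIdeals E (Ideal.span {(m : 𝓞 E)}), χ (normClassHom E m I) ≠ 1) :
    ∃ C : ℝ, ∀ s : ℝ, 1 < s → s ≤ 2 →
      ∑' p : Nat.Primes, charWeight χ p *
        ((Fermat.Agent.Frob.idealCount E p : ℝ) * ((p : ℕ) : ℝ) ^ (-s)) ≤ C := by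
  have hψ : χ.comp (normClassRay E m) ≠ 1 := by
    obtain ⟨I, hI⟩ := hχ
    intro h
    apply hI
    have h1 := DFunLike.congr_fun h (rayMk E _ _ I)
    rwa [MonoidHom.comp_apply, normClassRay_rayMk, MonoidHom.one_apply] at h1
  obtain ⟨C, hC⟩ := ray_char_re_tsum_le (nc_span_ne_bot E m) _ hψ
  refine ⟨C + Fermat.Agent.Lib.Frob.Dc E, fun s hs1 hs2 => ?_⟩
  have h1 := nc_tsum_primes_le E (charWeight χ) (abs_charWeight_le χ) hs1
  have h2 := hC s hs1 hs2
  simp only [re_rayTerm_normChar] at h2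
  linarith

/-- Variant of the hypothesis: a prime `p ∤ m` which is the norm of an ideal, with `χ(p) ≠ 1`. -/
theorem normChar_primeSum_le' (χ : (ZMod m)ˣ →* ℂˣ)
    (hχ : ∃ (p : ℕ) (h : p.Coprime m), Fermat.Agent.Frob.idealCount E p ≠ 0 ∧
      χ (ZMod.unitOfCoprime p h) ≠ 1) :
    ∃ C : ℝ, ∀ s : ℝ, 1 < s → s ≤ 2 →
      ∑' p : Nat.Primes, charWeight χ p *
        ((Fermat.Agent.Frob.idealCount E p : ℝ) * ((p : ℕ) : ℝ) ^ (-s)) ≤ C := by
  refine normChar_primeSum_le E m χ ?_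
  obtain ⟨p, h, hcount, hχp⟩ := hχ
  have hne : Nonempty {I : Ideal (𝓞 E) // absNorm I = p} := by
    by_contra hempty
    rw [not_nonempty_iff] at hempty
    exact hcount (by rw [Fermat.Agent.Frob.idealCount_def]; exact Nat.card_of_isEmpty)
  obtain ⟨I, hI⟩ := hne
  have hI0 : I ≠ ⊥ := by
    rintro rfl
    rw [absNorm_bot] at hI
    subst hI
    have hm1 : m = 1 := (Nat.coprime_zero_left m).mp h
    have hsub : Subsingleton (ZMod m)ˣ := by
      subst hm1
      infer_instance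
    exact hχp (by rw [Subsingleton.elim (ZMod.unitOfCoprime 0 h) 1, map_one])
  have hcop : IsCoprime I (Ideal.span {(m : 𝓞 E)}) :=
    isCoprime_of_absNorm_coprime E m I (by rw [hI]; exact h)
  refine ⟨⟨I, hI0, hcop⟩, ?_⟩
  have e : normClassHom E m ⟨I, hI0, hcop⟩ = ZMod.unitOfCoprime p h := by
    apply Units.ext
    rw [coe_normClassHom, ZMod.coe_unitOfCoprime]
    show ((absNorm I : ℕ) : ZMod m) = (p : ZMod m)
    rw [hI]
  rw [e]
  exact hχp

end NormClass

end Fermat.Agent.DS.Cheb
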