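import Mathlib
import Fermat.Agent.DS.Cheb.Abstract
import Fermat.Agent.DS.Cheb.FrobElt
import Fermat.Agent.DS.Cheb.NormChar
import Fermat.Agent.Lib.Frob.PrimeSumOfZeta

/-!
# Chebotarev for an element whose cyclic group embeds into `(ℤ/m)ˣ` (symmetric form)

`M/ℚ` a Galois number field containing a primitive `m`-th root of unity `ζ`, with cyclotomic
character `κ = hζ.autToPow ℚ : Gal(M/ℚ) → (ℤ/m)ˣ`, and `x ∈ Gal(M/ℚ)` such that `κ` is injective
on `⟨x⟩`.  With `conjCount M x p = #{y | y σ_p y⁻¹ = x}` (`σ_p` the chosen Frobenius at `p`):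

`∑_{p ∉ bad} (conjCount M x p + conjCount M x⁻¹ p) p^(-s) = 2 log (1/(s-1)) + O(1)` on `(1, 2]`.
-/

set_option autoImplicit false
set_option linter.unusedSectionVars false

namespace Fermat.Agent.DS.Cheb

open NumberField
open Fermat.Agent.Frob (idealCount)

section Tsum

/-- Removing finitely many terms from a convergent series. -/
theorem tsum_ite_notMem {ι : Type*} [DecidableEq ι] (f : ι → ℝ) (hf : Summable f)
    (B : Finset ι) :
    Summable (fun i => if i ∈ B then 0 else f i) ∧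
      ∑' i, (if i ∈ B then 0 else f i) = ∑' i, f i - ∑ i ∈ B, f i := by
  have hw : HasSum (fun i => if i ∈ B then f i else 0) (∑ i ∈ B, f i) := by
    have h0 : HasSum (fun i => if i ∈ B then f i else 0)
        (∑ b ∈ B, (if b ∈ B then f b else 0)) :=
      hasSum_sum_of_ne_finset_zero (fun i hi => if_neg hi)
    convert h0 using 1
    exact Finset.sum_congr rfl (fun i hi => (if_pos hi).symm)
  have hsplit : (fun i => if i ∈ B then 0 else f i) =
      fun i => f i - (if i ∈ B then f i else 0) := by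
    funext i
    split_ifs <;> simp
  rw [hsplit]
  exact ⟨hf.sub hw.summable, by rw [hf.tsum_sub hw.summable, hw.tsum_eq]⟩

end Tsum

section GoodTerm

variable (E : Type*) [Field E] [NumberField E]

/-- A bound for the contribution of the finitely many excluded primes. -/
noncomputable def badBound (bad : Finset Nat.Primes) : ℝ := ∑ p ∈ bad, (idealCount E p : ℝ)

theorem badBound_nonneg (bad : Finset Nat.Primes) : 0 ≤ badBound E bad :=
  Finset.sum_nonneg fun _ _ => Nat.cast_nonneg _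

theorem prime_rpow_neg_le_one (p : Nat.Primes) {s : ℝ} (hs : 0 ≤ s) :
    ((p : ℕ) : ℝ) ^ (-s) ≤ 1 :=
  Real.rpow_le_one_of_one_le_of_nonpos (by exact_mod_cast p.2.one_lt.le) (by linarith)

theorem prime_rpow_neg_nonneg (p : Nat.Primes) (s : ℝ) : 0 ≤ ((p : ℕ) : ℝ) ^ (-s) :=
  Real.rpow_nonneg (Nat.cast_nonneg _) _

theorem abs_sum_bad_le (bad : Finset Nat.Primes) (g : Nat.Primes → ℝ) (hg : ∀ p, |g p| ≤ 1)
    {s : ℝ} (hs : 0 ≤ s) :
    |∑ p ∈ bad, g p * ((idealCount E p : ℝ) * ((p : ℕ) : ℝ) ^ (-s))| ≤ badBound E bad := by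
  refine (Finset.abs_sum_le_sum_abs _ _).trans (Finset.sum_le_sum fun p _ => ?_)
  rw [abs_mul, abs_mul, abs_of_nonneg (Nat.cast_nonneg _ : (0 : ℝ) ≤ (idealCount E p : ℝ)),
    abs_of_nonneg (prime_rpow_neg_nonneg p s)]
  have h1 := hg p
  have h2 := prime_rpow_neg_le_one p hs
  have h3 := prime_rpow_neg_nonneg p s
  have h4 : (0 : ℝ) ≤ (idealCount E p : ℝ) := Nat.cast_nonneg _
  calc |g p| * ((idealCount E p : ℝ) * ((p : ℕ) : ℝ) ^ (-s))
      ≤ 1 * ((idealCount E p : ℝ) * 1) :=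
        mul_le_mul h1 (mul_le_mul_of_nonneg_left h2 h4) (mul_nonneg h4 h3) zero_le_one
    _ = (idealCount E p : ℝ) := by ring

/-- `∑_{p ∉ bad} a_E(p) p^(-s) = log (1/(s-1)) + O(1)`. -/
theorem goodSum_sub_log (bad : Finset Nat.Primes) :
    ∃ C : ℝ, 0 ≤ C ∧ ∀ s : ℝ, 1 < s → s ≤ 2 →
      Summable (fun p : Nat.Primes =>
        if p ∈ bad then 0 else (idealCount E p : ℝ) * ((p : ℕ) : ℝ) ^ (-s)) ∧
      |∑' p : Nat.Primes, (if p ∈ bad then 0 else (idealCount E p : ℝ) * ((p : ℕ) : ℝ) ^ (-s))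
        - Real.log (1 / (s - 1))| ≤ C := by
  obtain ⟨C₀, hC₀⟩ := Fermat.Agent.Lib.Frob.primeSum_bound_aux E
  refine ⟨|C₀| + badBound E bad, add_nonneg (abs_nonneg _) (badBound_nonneg E bad),
    fun s hs1 hs2 => ?_⟩
  obtain ⟨hsum, hb⟩ := hC₀ s hs1 hs2
  obtain ⟨h1, h2⟩ := tsum_ite_notMem _ hsum bad
  refine ⟨h1, ?_⟩
  rw [h2]
  have h3 := abs_sum_bad_le E bad (fun _ => 1) (fun _ => by simp) (by linarith : (0 : ℝ) ≤ s)
  simp only [one_mul] at h3
  have h4 := le_abs_self C₀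
  rw [abs_le] at hb h3 ⊢
  constructor <;> linarith [hb.1, hb.2, h3.1, h3.2]

variable {E} in
/-- The same for the character-weighted sums (upper bound only). -/
theorem goodSum_char_le {m : ℕ} [NeZero m] (bad : Finset Nat.Primes) (χ : (ZMod m)ˣ →* ℂˣ)
    (hχ : ∃ (p : ℕ) (h : p.Coprime m), idealCount E p ≠ 0 ∧ χ (ZMod.unitOfCoprime p h) ≠ 1) :
    ∃ C : ℝ, 0 ≤ C ∧ ∀ s : ℝ, 1 < s → s ≤ 2 →
      ∑' p : Nat.Primes, (if p ∈ bad then 0 else
        charWeight χ p * ((idealCount E p : ℝ) * ((p : ℕ) : ℝ) ^ (-s))) ≤ C := by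
  obtain ⟨C₀, hC₀⟩ := normChar_primeSum_le' E m χ hχ
  refine ⟨|C₀| + badBound E bad, add_nonneg (abs_nonneg _) (badBound_nonneg E bad),
    fun s hs1 hs2 => ?_⟩
  have hsum := (nc_tsum_degOne_weighted E (charWeight χ) (abs_charWeight_le χ) hs1).1
  obtain ⟨-, h2⟩ := tsum_ite_notMem _ hsum bad
  rw [h2]
  have h3 := abs_sum_bad_le E bad (fun p => charWeight χ p) (fun p => abs_charWeight_le χ p)
    (by linarith : (0 : ℝ) ≤ s)
  have h4 := le_abs_self C₀
  have h5 := hC₀ s hs1 hs2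
  rw [abs_le] at h3
  linarith [h3.1, h3.2]

end GoodTerm

section Cyc

variable {M : Type*} [Field M] [NumberField M] [IsGalois ℚ M] {m : ℕ} [NeZero m] {ζ : M}
  (hζ : IsPrimitiveRoot ζ m)

/-- The class of a prime modulo `m` (`1` if `p ∣ m`). -/
noncomputable def primeClass (m : ℕ) (p : Nat.Primes) : (ZMod m)ˣ :=
  if h : (p : ℕ).Coprime m then ZMod.unitOfCoprime p h else 1

theorem autToPow_frobElt_eq (p : Nat.Primes) (hpm : ¬ (p : ℕ) ∣ m) :
    hζ.autToPow ℚ (frobElt M p) = primeClass m p := by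
  have hc : (p : ℕ).Coprime m := (Nat.Prime.coprime_iff_not_dvd p.2).mpr hpm
  apply Units.ext
  rw [autToPow_frobElt hζ p hpm, primeClass, dif_pos hc, ZMod.coe_unitOfCoprime]

variable (M) in
/-- The number of `y` conjugating the chosen Frobenius at `p` to `x`. -/
noncomputable def conjCount (x : M ≃ₐ[ℚ] M) (p : Nat.Primes) : ℕ :=
  Nat.card {y : M ≃ₐ[ℚ] M // y * frobElt M p * y⁻¹ = x}

theorem autToPow_conj (y σ : M ≃ₐ[ℚ] M) :
    hζ.autToPow ℚ (y * σ * y⁻¹) = hζ.autToPow ℚ σ := by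
  rw [map_mul, map_mul, map_inv, mul_comm, ← mul_assoc, inv_mul_cancel, one_mul]

theorem conjCount_eq (x : M ≃ₐ[ℚ] M)
    (hx : ∀ y ∈ Subgroup.zpowers x, hζ.autToPow ℚ y = 1 → y = 1) (p : Nat.Primes)
    (hpd : ¬ (((p : ℕ) : ℤ)) ∣ NumberField.discr M) (z : M ≃ₐ[ℚ] M)
    (hz : z ∈ Subgroup.zpowers x) :
    conjCount M z p = if hζ.autToPow ℚ (frobElt M p) = hζ.autToPow ℚ z then
      Nat.card (Subgroup.zpowers x) *
        idealCount (IntermediateField.fixedField (Subgroup.zpowers x)) p else 0 := by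
  split_ifs with h
  · rw [card_mul_idealCount_eq M (Subgroup.zpowers x) p hpd]
    unfold conjCount
    refine Nat.card_congr (Equiv.subtypeEquivRight fun y => ?_)
    constructor
    · intro hy
      rw [hy]
      exact hz
    · intro hy
      have h1 : hζ.autToPow ℚ (y * frobElt M p * y⁻¹ * z⁻¹) = 1 := by
        rw [map_mul, autToPow_conj, h, map_inv, mul_inv_cancel]
      have h2 := hx _ (Subgroup.mul_mem _ hy (Subgroup.inv_mem _ hz)) h1
      exact mul_inv_eq_one.mp h2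
  · unfold conjCount
    have : IsEmpty {y : M ≃ₐ[ℚ] M // y * frobElt M p * y⁻¹ = z} := by
      constructor
      rintro ⟨y, hy⟩
      apply h
      rw [← hy, autToPow_conj]
    exact Nat.card_of_isEmpty

include hζ in
/-- Lower bound for the primes with trivial class, from the completely split primes of `M`. -/
theorem cyc_split_ge (bad : Finset Nat.Primes)
    (hbad : ∀ p : Nat.Primes, p ∉ bad →
      ¬ (((p : ℕ) : ℤ)) ∣ NumberField.discr M ∧ ¬ (p : ℕ) ∣ m)
    (H : Subgroup (M ≃ₐ[ℚ] M)) :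
    ∃ C : ℝ, 0 ≤ C ∧ ∀ s : ℝ, 1 < s → s ≤ 2 →
      Real.log (1 / (s - 1)) - C ≤ (Nat.card H : ℝ) * ∑' p : Nat.Primes,
        (if primeClass m p = 1 then
          (if p ∈ bad then 0 else
            (idealCount (IntermediateField.fixedField H) p : ℝ) * ((p : ℕ) : ℝ) ^ (-s))
          else 0) := by
  classical
  obtain ⟨C, hCnn, hC⟩ :=
    goodSum_sub_log (IntermediateField.fixedField (⊥ : Subgroup (M ≃ₐ[ℚ] M))) bad
  obtain ⟨CE, -, hCE⟩ := goodSum_sub_log (IntermediateField.fixedField H) bad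
  refine ⟨C, hCnn, fun s hs1 hs2 => ?_⟩
  obtain ⟨hsumB, hb⟩ := hC s hs1 hs2
  have hsumE := (hCE s hs1 hs2).1
  have hvnn : ∀ p : Nat.Primes, 0 ≤ (if p ∈ bad then 0 else
      (idealCount (IntermediateField.fixedField H) p : ℝ) * ((p : ℕ) : ℝ) ^ (-s)) := by
    intro p
    split_ifs
    · exact le_rfl
    · exact mul_nonneg (Nat.cast_nonneg _) (prime_rpow_neg_nonneg p s)
  have hsumR := ch_summable_ite (primeClass m) _ hvnn hsumE (fun u => u = 1)
  have hpt : ∀ p : Nat.Primes,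
      (if p ∈ bad then 0 else
        (idealCount (IntermediateField.fixedField (⊥ : Subgroup (M ≃ₐ[ℚ] M))) p : ℝ) *
          ((p : ℕ) : ℝ) ^ (-s)) ≤
      (Nat.card H : ℝ) * (if primeClass m p = 1 then
          (if p ∈ bad then 0 else
            (idealCount (IntermediateField.fixedField H) p : ℝ) * ((p : ℕ) : ℝ) ^ (-s))
          else 0) := by
    intro p
    by_cases hp : p ∈ bad
    · simp [hp]
    · obtain ⟨hpd, hpm⟩ := hbad p hp
      have h1 := card_mul_idealCount_eq M (⊥ : Subgroup (M ≃ₐ[ℚ] M)) p hpd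
      have h2 := card_mul_idealCount_eq M H p hpd
      rw [Subgroup.card_bot, one_mul] at h1
      have ht := prime_rpow_neg_nonneg p s
      by_cases hc : primeClass m p = 1
      · rw [if_neg hp, if_pos hc, if_neg hp]
        have hle : idealCount (IntermediateField.fixedField (⊥ : Subgroup (M ≃ₐ[ℚ] M))) p ≤
            Nat.card H * idealCount (IntermediateField.fixedField H) p := by
          rw [h1, h2]
          refine Nat.card_le_card_of_injective
            (fun y => (⟨y.1, by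
              have := y.2
              rw [Subgroup.mem_bot] at this
              rw [this]
              exact H.one_mem⟩ : {y : M ≃ₐ[ℚ] M // y * frobElt M p * y⁻¹ ∈ H})) ?_
          intro y y' h
          have h' : (y : M ≃ₐ[ℚ] M) = y' := congrArg
            (fun z : {y : M ≃ₐ[ℚ] M // y * frobElt M p * y⁻¹ ∈ H} => (z : M ≃ₐ[ℚ] M)) h
          exact Subtype.ext h'
        have hle' : (idealCount (IntermediateField.fixedField (⊥ : Subgroup (M ≃ₐ[ℚ] M))) p : ℝ)
            ≤ (Nat.card H : ℝ) * (idealCount (IntermediateField.fixedField H) p : ℝ) := by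
          exact_mod_cast hle
        calc (idealCount (IntermediateField.fixedField (⊥ : Subgroup (M ≃ₐ[ℚ] M))) p : ℝ) *
              ((p : ℕ) : ℝ) ^ (-s)
            ≤ ((Nat.card H : ℝ) * (idealCount (IntermediateField.fixedField H) p : ℝ)) *
              ((p : ℕ) : ℝ) ^ (-s) := mul_le_mul_of_nonneg_right hle' ht
          _ = _ := by ring
      · rw [if_neg hp, if_neg hc, mul_zero]
        have h0 : idealCount (IntermediateField.fixedField (⊥ : Subgroup (M ≃ₐ[ℚ] M))) p = 0 := by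
          rw [h1]
          have : IsEmpty {y : M ≃ₐ[ℚ] M // y * frobElt M p * y⁻¹ ∈ (⊥ : Subgroup (M ≃ₐ[ℚ] M))} := by
            constructor
            rintro ⟨y, hy⟩
            apply hc
            rw [Subgroup.mem_bot] at hy
            have h3 : frobElt M p = 1 := by
              have h4 : frobElt M p = y⁻¹ * (y * frobElt M p * y⁻¹) * y := by group
              rw [h4, hy]
              group
            rw [← autToPow_frobElt_eq hζ p hpm, h3, map_one]
          exact Nat.card_of_isEmpty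
        rw [h0]
        simp
  have hle := Summable.tsum_le_tsum hpt hsumB (hsumR.mul_left _)
  rw [tsum_mul_left] at hle
  have := (abs_le.mp hb).1
  linarith

/-- The nontriviality hypothesis of `goodSum_char_le`, from the Frobenius density theorem. -/
theorem exists_prime_char_ne_one (bad : Finset Nat.Primes)
    (hbad : ∀ p : Nat.Primes, p ∉ bad →
      ¬ (((p : ℕ) : ℤ)) ∣ NumberField.discr M ∧ ¬ (p : ℕ) ∣ m)
    (x : M ≃ₐ[ℚ] M) (χ : (ZMod m)ˣ →* ℂˣ)
    (hχ : ∃ a' ∈ (Subgroup.zpowers x).map (hζ.autToPow ℚ), χ a' ≠ 1) :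
    ∃ (p : ℕ) (h : p.Coprime m),
      idealCount (IntermediateField.fixedField (Subgroup.zpowers x)) p ≠ 0 ∧
        χ (ZMod.unitOfCoprime p h) ≠ 1 := by
  classical
  obtain ⟨p, hp, hpS, hpd, P, hP, hpP, hstab⟩ :=
    Fermat.Agent.Frob.exists_prime_stabilizer_eq_zpowers M x
      (bad.image (fun q : Nat.Primes => (q : ℕ)))
  set q : Nat.Primes := ⟨p, hp⟩ with hq
  have hqbad : q ∉ bad := by
    intro h
    exact hpS (Finset.mem_image_of_mem (fun q : Nat.Primes => (q : ℕ)) h)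
  obtain ⟨hqd, hqm⟩ := hbad q hqbad
  have hc : p.Coprime m := (Nat.Prime.coprime_iff_not_dvd hp).mpr hqm
  have hfin := Fermat.Agent.Frob.fa_finite_quot M hp P hpP
  obtain ⟨σ', hσ'⟩ := IsArithFrobAt.exists_of_isInvariant ℤ (M ≃ₐ[ℚ] M) P
  have hz : Subgroup.zpowers σ' = Subgroup.zpowers x := by
    rw [← hstab, Fermat.Agent.Frob.stabilizer_eq_zpowers M hp hpd P hpP σ' hσ']
  obtain ⟨y, hy⟩ := (isFrob_iff M q hqd σ').mp ⟨P, hP, hpP, hσ'⟩
  refine ⟨p, hc, ?_, ?_⟩
  · intro h0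
    have h1 := card_mul_idealCount_eq M (Subgroup.zpowers x) q hqd
    have h0' : idealCount (IntermediateField.fixedField (Subgroup.zpowers x)) (q : ℕ) = 0 := h0
    rw [h0', mul_zero] at h1
    have hne : Nonempty {y : M ≃ₐ[ℚ] M // y * frobElt M q * y⁻¹ ∈ Subgroup.zpowers x} :=
      ⟨⟨y, by rw [hy, ← hz]; exact Subgroup.mem_zpowers σ'⟩⟩
    exact (Nat.card_pos (α := {y : M ≃ₐ[ℚ] M // y * frobElt M q * y⁻¹ ∈ Subgroup.zpowers x})).ne
      h1
  · have hκ : hζ.autToPow ℚ σ' = ZMod.unitOfCoprime p hc := by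
      rw [← hy, autToPow_conj, autToPow_frobElt_eq hζ q hqm, primeClass, dif_pos hc]
    obtain ⟨a', ha', hχa⟩ := hχ
    obtain ⟨h, hh, rfl⟩ := Subgroup.mem_map.mp ha'
    rw [← hz] at hh
    obtain ⟨k, rfl⟩ := Subgroup.mem_zpowers_iff.mp hh
    intro h1
    apply hχa
    rw [map_zpow, map_zpow, hκ, h1, one_zpow]

/-- **Symmetric Chebotarev for an element on whose cyclic group the cyclotomic character is
injective.** -/
theorem cyc_sum (bad : Finset Nat.Primes)
    (hbad : ∀ p : Nat.Primes, p ∉ bad →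
      ¬ (((p : ℕ) : ℤ)) ∣ NumberField.discr M ∧ ¬ (p : ℕ) ∣ m)
    (x : M ≃ₐ[ℚ] M) (hx : ∀ y ∈ Subgroup.zpowers x, hζ.autToPow ℚ y = 1 → y = 1) :
    ∃ C : ℝ, ∀ s : ℝ, 1 < s → s ≤ 2 →
      Summable (fun p : Nat.Primes => if p ∈ bad then 0 else
        ((conjCount M x p : ℝ) + (conjCount M x⁻¹ p : ℝ)) * ((p : ℕ) : ℝ) ^ (-s)) ∧
      |∑' p : Nat.Primes, (if p ∈ bad then 0 else
        ((conjCount M x p : ℝ) + (conjCount M x⁻¹ p : ℝ)) * ((p : ℕ) : ℝ) ^ (-s))
        - 2 * Real.log (1 / (s - 1))| ≤ C := by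
  classical
  have hfinχ : Finite ((ZMod m)ˣ →* ℂˣ) := ch_finite_char
  let _ : Fintype ((ZMod m)ˣ →* ℂˣ) := Fintype.ofFinite _
  set H : Subgroup (M ≃ₐ[ℚ] M) := Subgroup.zpowers x with hH
  set κ : (M ≃ₐ[ℚ] M) →* (ZMod m)ˣ := hζ.autToPow ℚ with hκ
  set A : Subgroup (ZMod m)ˣ := H.map κ with hA
  have haA : κ x ∈ A := Subgroup.mem_map_of_mem κ (Subgroup.mem_zpowers x)
  have hinj : Set.InjOn κ (H : Set (M ≃ₐ[ℚ] M)) := by
    intro y hy z hz hyz
    have h1 : κ (y * z⁻¹) = 1 := by rw [map_mul, map_inv, hyz, mul_inv_cancel]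
    exact mul_inv_eq_one.mp (hx _ (H.mul_mem hy (H.inv_mem hz)) h1)
  have hcardA : Nat.card A = Nat.card H := by
    show Nat.card (A : Set (ZMod m)ˣ) = Nat.card (H : Set (M ≃ₐ[ℚ] M))
    rw [Nat.card_coe_set_eq, Nat.card_coe_set_eq, hA, Subgroup.coe_map,
      Set.InjOn.ncard_image hinj]
  have hHpos : (0 : ℝ) < (Nat.card H : ℝ) := by exact_mod_cast Nat.card_pos
  obtain ⟨C1, hC1nn, hC1⟩ := goodSum_sub_log (IntermediateField.fixedField H) bad
  have hH2 : ∀ χ : (ZMod m)ˣ →* ℂˣ, ∃ C : ℝ, 0 ≤ C ∧ ((∃ a' ∈ A, χ a' ≠ 1) →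
      ∀ s : ℝ, 1 < s → s ≤ 2 → ∑' p : Nat.Primes, (if p ∈ bad then 0 else
        charWeight χ p * ((idealCount (IntermediateField.fixedField H) p : ℝ) *
          ((p : ℕ) : ℝ) ^ (-s))) ≤ C) := by
    intro χ
    by_cases hχ : ∃ a' ∈ A, χ a' ≠ 1
    · obtain ⟨C, hCnn, hC⟩ := goodSum_char_le (E := IntermediateField.fixedField H) bad χ
        (exists_prime_char_ne_one hζ bad hbad x χ hχ)
      exact ⟨C, hCnn, fun _ => hC⟩
    · exact ⟨0, le_rfl, fun h => absurd h hχ⟩
  choose C2f hC2nn hC2 using hH2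
  set C2 : ℝ := ∑ χ : (ZMod m)ˣ →* ℂˣ, C2f χ with hC2def
  have hC2nn' : 0 ≤ C2 := Finset.sum_nonneg fun χ _ => hC2nn χ
  have hC2le : ∀ χ : (ZMod m)ˣ →* ℂˣ, C2f χ ≤ C2 := fun χ =>
    Finset.single_le_sum (fun χ' _ => hC2nn χ') (Finset.mem_univ χ)
  obtain ⟨C3, hC3nn, hC3⟩ := cyc_split_ge hζ bad hbad H
  refine ⟨(Nat.card H : ℝ) *
    (2 * C1 + 2 * (Nat.card (ZMod m)ˣ : ℝ) * (C1 + C2 + C3)), fun s hs1 hs2 => ?_⟩
  set v : Nat.Primes → ℝ := fun p => if p ∈ bad then 0 else
    (idealCount (IntermediateField.fixedField H) p : ℝ) * ((p : ℕ) : ℝ) ^ (-s) with hv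
  have hvnn : ∀ p, 0 ≤ v p := by
    intro p
    rw [hv]
    show 0 ≤ (if p ∈ bad then 0 else
      (idealCount (IntermediateField.fixedField H) p : ℝ) * ((p : ℕ) : ℝ) ^ (-s))
    split_ifs
    · exact le_rfl
    · exact mul_nonneg (Nat.cast_nonneg _) (prime_rpow_neg_nonneg p s)
  obtain ⟨hvsum, hvlog⟩ := hC1 s hs1 hs2
  have hcA : ∀ p, v p ≠ 0 → primeClass m p ∈ A := by
    intro p hp0
    have hpb : p ∉ bad := by
      intro h
      apply hp0
      rw [hv]
      show (if p ∈ bad then 0 else _) = (0 : ℝ)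
      rw [if_pos h]
    obtain ⟨hpd, hpm⟩ := hbad p hpb
    have hic : idealCount (IntermediateField.fixedField H) p ≠ 0 := by
      intro h
      apply hp0
      rw [hv]
      show (if p ∈ bad then 0 else _) = (0 : ℝ)
      rw [if_neg hpb, h, Nat.cast_zero, zero_mul]
    have h1 := card_mul_idealCount_eq M H p hpd
    have hne : Nat.card {y : M ≃ₐ[ℚ] M // y * frobElt M p * y⁻¹ ∈ H} ≠ 0 := by
      rw [← h1]
      exact mul_ne_zero Nat.card_pos.ne' hic
    have hnonempty : Nonempty {y : M ≃ₐ[ℚ] M // y * frobElt M p * y⁻¹ ∈ H} := by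
      by_contra hemp
      rw [not_nonempty_iff] at hemp
      exact hne Nat.card_of_isEmpty
    obtain ⟨y, hy⟩ := hnonempty
    rw [← autToPow_frobElt_eq hζ p hpm, ← autToPow_conj hζ y]
    exact Subgroup.mem_map_of_mem κ hy
  have hH2' : ∀ χ : (ZMod m)ˣ →* ℂˣ, (∃ a' ∈ A, χ a' ≠ 1) →
      ∑' p, ((χ (primeClass m p) : ℂˣ) : ℂ).re * v p ≤ C2 := by
    intro χ hχ
    refine le_trans (le_of_eq ?_) ((hC2 χ hχ s hs1 hs2).trans (hC2le χ))
    refine tsum_congr fun p => ?_
    rw [hv]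
    show ((χ (primeClass m p) : ℂˣ) : ℂ).re * (if p ∈ bad then 0 else _) = _
    by_cases hpb : p ∈ bad
    · rw [if_pos hpb, if_pos hpb, mul_zero]
    · rw [if_neg hpb, if_neg hpb]
      have hc : (p : ℕ).Coprime m := (Nat.Prime.coprime_iff_not_dvd p.2).mpr (hbad p hpb).2
      unfold primeClass charWeight
      rw [dif_pos hc, dif_pos hc]
  have hH3' : Real.log (1 / (s - 1)) - C3 ≤
      (Nat.card A : ℝ) * ∑' p, (if primeClass m p = 1 then v p else 0) := by
    rw [hcardA]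
    exact hC3 s hs1 hs2
  have key := fourier_two_sided A (primeClass m) v hvnn hvsum hcA (Real.log (1 / (s - 1)))
    C1 C2 C3 hC1nn hC2nn' hC3nn hvlog hH2' hH3' (κ x) haA
  rw [hcardA] at key
  -- the pointwise identity
  have hpt : ∀ p : Nat.Primes, (if p ∈ bad then 0 else
      ((conjCount M x p : ℝ) + (conjCount M x⁻¹ p : ℝ)) * ((p : ℕ) : ℝ) ^ (-s)) =
      (Nat.card H : ℝ) * ((if primeClass m p = κ x then v p else 0) +
        (if primeClass m p = (κ x)⁻¹ then v p else 0)) := by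
    intro p
    rw [hv]
    show _ = (Nat.card H : ℝ) * ((if primeClass m p = κ x then (if p ∈ bad then 0 else _) else 0) +
        (if primeClass m p = (κ x)⁻¹ then (if p ∈ bad then 0 else _) else 0))
    by_cases hpb : p ∈ bad
    · simp [hpb]
    · obtain ⟨hpd, hpm⟩ := hbad p hpb
      have e1 := conjCount_eq hζ x hx p hpd x (Subgroup.mem_zpowers x)
      have e2 := conjCount_eq hζ x hx p hpd x⁻¹ (Subgroup.inv_mem _ (Subgroup.mem_zpowers x))
      rw [autToPow_frobElt_eq hζ p hpm] at e1 e2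
      rw [map_inv] at e2
      rw [← hκ, ← hH] at e1 e2
      rw [if_neg hpb, if_neg hpb, e1, e2]
      by_cases h1 : primeClass m p = κ x
      · by_cases h2 : primeClass m p = (κ x)⁻¹
        · simp only [if_pos h1, if_pos h2]
          push_cast
          ring
        · simp only [if_pos h1, if_neg h2]
          push_cast
          ring
      · by_cases h2 : primeClass m p = (κ x)⁻¹
        · simp only [if_neg h1, if_pos h2]
          push_cast
          ring
        · simp only [if_neg h1, if_neg h2]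
          simp
  have hs1' := ch_summable_ite (primeClass m) v hvnn hvsum (fun u => u = κ x)
  have hs2' := ch_summable_ite (primeClass m) v hvnn hvsum (fun u => u = (κ x)⁻¹)
  have hsumT := (hs1'.add hs2').mul_left (Nat.card H : ℝ)
  constructor
  · exact hsumT.congr (fun p => (hpt p).symm)
  · rw [tsum_congr hpt, tsum_mul_left]
    have e : (Nat.card H : ℝ) * ∑' p, ((if primeClass m p = κ x then v p else 0) +
        (if primeClass m p = (κ x)⁻¹ then v p else 0)) - 2 * Real.log (1 / (s - 1)) =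
        (Nat.card H : ℝ) * (∑' p, ((if primeClass m p = κ x then v p else 0) +
        (if primeClass m p = (κ x)⁻¹ then v p else 0)) -
          2 / (Nat.card H : ℝ) * Real.log (1 / (s - 1))) := by
      field_simp
    rw [e, abs_mul, abs_of_pos hHpos]
    exact mul_le_mul_of_nonneg_left key hHpos.le

end Cyc

end Fermat.Agent.DS.Cheb
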