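import Mathlib
import Fermat.Agent.DS.Cheb.Cyc

/-!
# Symmetric Chebotarev for class functions supported on elements with injective cyclotomic
character

`M/ℚ` Galois number field containing a primitive `m`-th root of unity.  For a class function
`F ≥ 0` on `Gal(M/ℚ)` with `F x⁻¹ = F x`, such that the cyclotomic character is injective on
`⟨x⟩` whenever `F x ≠ 0`:

`∑_{p ∉ bad} F(σ_p) p^(-s) ≥ (mean F) log (1/(s-1)) - C` on `(1, 2]`.
-/

set_option autoImplicit false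
set_option linter.unusedSectionVars false

namespace Fermat.Agent.DS.Cheb

open NumberField

section ClassSum

variable {M : Type*} [Field M] [NumberField M] [IsGalois ℚ M] {m : ℕ} [NeZero m] {ζ : M}
  (hζ : IsPrimitiveRoot ζ m)

/-- Summing `F x * conjCount x p` for a class function `F`. -/
theorem sum_mul_conjCount (F : (M ≃ₐ[ℚ] M) → ℝ) (hconj : ∀ g h, F (h * g * h⁻¹) = F g)
    (p : Nat.Primes) :
    ∑ x : M ≃ₐ[ℚ] M, F x * (conjCount M x p : ℝ) =
      (Nat.card (M ≃ₐ[ℚ] M) : ℝ) * F (frobElt M p) := by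
  classical
  have hcc : ∀ x : M ≃ₐ[ℚ] M, (conjCount M x p : ℝ) =
      ∑ y : M ≃ₐ[ℚ] M, if y * frobElt M p * y⁻¹ = x then (1 : ℝ) else 0 := by
    intro x
    unfold conjCount
    rw [Nat.card_eq_fintype_card, Fintype.card_subtype, Finset.sum_boole]
  simp only [hcc, Finset.mul_sum]
  rw [Finset.sum_comm]
  have h1 : ∀ y : M ≃ₐ[ℚ] M,
      ∑ x : M ≃ₐ[ℚ] M, F x * (if y * frobElt M p * y⁻¹ = x then (1 : ℝ) else 0) =
        F (frobElt M p) := by
    intro y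
    simp only [mul_ite, mul_one, mul_zero]
    rw [Finset.sum_ite_eq, if_pos (Finset.mem_univ _), hconj]
  rw [Finset.sum_congr rfl (fun y _ => h1 y), Finset.sum_const, Finset.card_univ,
    nsmul_eq_mul, Nat.card_eq_fintype_card]

theorem summable_primes_rpow {s : ℝ} (hs : 1 < s) :
    Summable fun p : Nat.Primes => ((p : ℕ) : ℝ) ^ (-s) :=
  Nat.Primes.summable_rpow.mpr (by linarith)

/-- **Symmetric Chebotarev (lower bound), weighted form**, for a class function `F ≥ 0`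
invariant under inversion and supported on elements on whose cyclic groups the cyclotomic
character is injective. -/
theorem class_sum_weighted (bad : Finset Nat.Primes)
    (hbad : ∀ p : Nat.Primes, p ∉ bad →
      ¬ (((p : ℕ) : ℤ)) ∣ NumberField.discr M ∧ ¬ (p : ℕ) ∣ m)
    (F : (M ≃ₐ[ℚ] M) → ℝ) (hF0 : ∀ x, 0 ≤ F x) (hconj : ∀ g h, F (h * g * h⁻¹) = F g)
    (hinv : ∀ g, F g⁻¹ = F g)
    (hdom : ∀ x, F x ≠ 0 → ∀ y ∈ Subgroup.zpowers x, hζ.autToPow ℚ y = 1 → y = 1) :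
    ∃ C : ℝ, ∀ s : ℝ, 1 < s → s ≤ 2 →
      Summable (fun p : Nat.Primes => if p ∈ bad then 0 else
        F (frobElt M p) * ((p : ℕ) : ℝ) ^ (-s)) ∧
      (∑ x : M ≃ₐ[ℚ] M, F x) / (Nat.card (M ≃ₐ[ℚ] M) : ℝ) * Real.log (1 / (s - 1)) - C ≤
        ∑' p : Nat.Primes, (if p ∈ bad then 0 else F (frobElt M p) * ((p : ℕ) : ℝ) ^ (-s)) := by
  classical
  have hG : (0 : ℝ) < (Nat.card (M ≃ₐ[ℚ] M) : ℝ) := by exact_mod_cast Nat.card_pos
  have hex : ∀ x : M ≃ₐ[ℚ] M, ∃ C : ℝ, F x ≠ 0 → ∀ s : ℝ, 1 < s → s ≤ 2 →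
      Summable (fun p : Nat.Primes => if p ∈ bad then 0 else
        ((conjCount M x p : ℝ) + (conjCount M x⁻¹ p : ℝ)) * ((p : ℕ) : ℝ) ^ (-s)) ∧
      |∑' p : Nat.Primes, (if p ∈ bad then 0 else
        ((conjCount M x p : ℝ) + (conjCount M x⁻¹ p : ℝ)) * ((p : ℕ) : ℝ) ^ (-s))
        - 2 * Real.log (1 / (s - 1))| ≤ C := by
    intro x
    by_cases hx : F x ≠ 0
    · obtain ⟨C, hC⟩ := cyc_sum hζ bad hbad x (hdom x hx)
      exact ⟨C, fun _ => hC⟩
    · exact ⟨0, fun h => absurd h hx⟩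
  choose Cf hCf using hex
  refine ⟨(∑ x : M ≃ₐ[ℚ] M, F x * Cf x) / (2 * (Nat.card (M ≃ₐ[ℚ] M) : ℝ)),
    fun s hs1 hs2 => ?_⟩
  set t : Nat.Primes → ℝ := fun p => ((p : ℕ) : ℝ) ^ (-s) with ht
  have htnn : ∀ p, 0 ≤ t p := fun p => prime_rpow_neg_nonneg p s
  -- a bound for `F`
  obtain ⟨B, hB⟩ : ∃ B : ℝ, ∀ x, F x ≤ B :=
    ⟨∑ x : M ≃ₐ[ℚ] M, F x, fun x => Finset.single_le_sum (fun y _ => hF0 y) (Finset.mem_univ x)⟩
  set g : Nat.Primes → ℝ := fun p => if p ∈ bad then 0 else F (frobElt M p) * t p with hg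
  have hgnn : ∀ p, 0 ≤ g p := by
    intro p
    rw [hg]
    show 0 ≤ (if p ∈ bad then 0 else F (frobElt M p) * t p)
    split_ifs
    · exact le_rfl
    · exact mul_nonneg (hF0 _) (htnn p)
  have hgle : ∀ p, g p ≤ B * t p := by
    intro p
    rw [hg]
    show (if p ∈ bad then 0 else F (frobElt M p) * t p) ≤ B * t p
    have hB0 : 0 ≤ B := (hF0 1).trans (hB 1)
    split_ifs
    · exact mul_nonneg hB0 (htnn p)
    · exact mul_le_mul_of_nonneg_right (hB _) (htnn p)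
  have hgsum : Summable g :=
    Summable.of_nonneg_of_le hgnn hgle ((summable_primes_rpow hs1).mul_left B)
  refine ⟨hgsum, ?_⟩
  -- the individual weighted series
  set w : (M ≃ₐ[ℚ] M) → Nat.Primes → ℝ := fun x p =>
    if p ∈ bad then 0 else F x * ((conjCount M x p : ℝ) * t p) with hw
  set W : (M ≃ₐ[ℚ] M) → Nat.Primes → ℝ := fun x p =>
    if p ∈ bad then 0 else ((conjCount M x p : ℝ) + (conjCount M x⁻¹ p : ℝ)) * t p with hW
  have hwnn : ∀ x p, 0 ≤ w x p := by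
    intro x p
    rw [hw]
    show 0 ≤ (if p ∈ bad then 0 else F x * ((conjCount M x p : ℝ) * t p))
    split_ifs
    · exact le_rfl
    · exact mul_nonneg (hF0 x) (mul_nonneg (Nat.cast_nonneg _) (htnn p))
  have hwW : ∀ x p, w x p + w x⁻¹ p = F x * W x p := by
    intro x p
    rw [hw, hW]
    show (if p ∈ bad then 0 else F x * ((conjCount M x p : ℝ) * t p)) +
      (if p ∈ bad then 0 else F x⁻¹ * ((conjCount M x⁻¹ p : ℝ) * t p)) =
      F x * (if p ∈ bad then 0 else ((conjCount M x p : ℝ) + (conjCount M x⁻¹ p : ℝ)) * t p)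
    rw [hinv x]
    split_ifs
    · simp
    · ring
  have hWsum : ∀ x, F x ≠ 0 → Summable (W x) := fun x hx => (hCf x hx s hs1 hs2).1
  have hwsum : ∀ x, Summable (w x) := by
    intro x
    by_cases hx : F x = 0
    · have : w x = fun _ => 0 := by
        funext p
        rw [hw]
        show (if p ∈ bad then 0 else F x * ((conjCount M x p : ℝ) * t p)) = 0
        rw [hx]
        simp
      rw [this]
      exact summable_zero
    · refine Summable.of_nonneg_of_le (hwnn x) (fun p => ?_) ((hWsum x hx).mul_left (F x))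
      rw [← hwW x p]
      linarith [hwnn x⁻¹ p]
  have hlow : ∀ x, F x * (2 * Real.log (1 / (s - 1)) - Cf x) ≤ ∑' p, (w x p + w x⁻¹ p) := by
    intro x
    by_cases hx : F x = 0
    · rw [hx, zero_mul]
      exact tsum_nonneg fun p => add_nonneg (hwnn x p) (hwnn x⁻¹ p)
    · rw [tsum_congr (hwW x), tsum_mul_left]
      refine mul_le_mul_of_nonneg_left ?_ (hF0 x)
      have := (abs_le.mp (hCf x hx s hs1 hs2).2).1
      linarith
  -- symmetrisation
  have hsym : ∑ x : M ≃ₐ[ℚ] M, ∑' p, w x⁻¹ p = ∑ x : M ≃ₐ[ℚ] M, ∑' p, w x p :=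
    Fintype.sum_equiv (Equiv.inv (M ≃ₐ[ℚ] M)) _ _ (fun x => rfl)
  have h2 : 2 * ∑ x : M ≃ₐ[ℚ] M, ∑' p, w x p = ∑ x : M ≃ₐ[ℚ] M, ∑' p, (w x p + w x⁻¹ p) := by
    rw [two_mul]
    nth_rewrite 2 [← hsym]
    rw [← Finset.sum_add_distrib]
    refine Finset.sum_congr rfl fun x _ => ?_
    rw [(hwsum x).tsum_add (hwsum x⁻¹)]
  have h3 : (∑ x : M ≃ₐ[ℚ] M, F x) * (2 * Real.log (1 / (s - 1))) -
      ∑ x : M ≃ₐ[ℚ] M, F x * Cf x ≤ ∑ x : M ≃ₐ[ℚ] M, ∑' p, (w x p + w x⁻¹ p) := by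
    have := Finset.sum_le_sum (fun x (_ : x ∈ Finset.univ) => hlow x)
    simp only [mul_sub, Finset.sum_sub_distrib, ← Finset.sum_mul] at this
    exact this
  -- the sum over `x` of the individual series
  have h4 : ∑ x : M ≃ₐ[ℚ] M, ∑' p, w x p = (Nat.card (M ≃ₐ[ℚ] M) : ℝ) * ∑' p, g p := by
    rw [← Summable.tsum_finsetSum (fun x _ => hwsum x), ← tsum_mul_left]
    refine tsum_congr fun p => ?_
    have hsc := sum_mul_conjCount F hconj p
    rw [hw, hg]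
    show ∑ x : M ≃ₐ[ℚ] M, (if p ∈ bad then 0 else F x * ((conjCount M x p : ℝ) * t p)) =
      (Nat.card (M ≃ₐ[ℚ] M) : ℝ) * (if p ∈ bad then 0 else F (frobElt M p) * t p)
    by_cases hp : p ∈ bad
    · simp [hp]
    · simp only [if_neg hp]
      rw [← mul_assoc, ← hsc, Finset.sum_mul]
      refine Finset.sum_congr rfl fun x _ => by ring
  rw [h4] at h2
  have h5 : (∑ x : M ≃ₐ[ℚ] M, F x) * (2 * Real.log (1 / (s - 1))) -
      ∑ x : M ≃ₐ[ℚ] M, F x * Cf x ≤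
      2 * ((Nat.card (M ≃ₐ[ℚ] M) : ℝ) * ∑' p, g p) := by rw [h2]; exact h3
  have h7 : (∑ x : M ≃ₐ[ℚ] M, F x) / (Nat.card (M ≃ₐ[ℚ] M) : ℝ) * Real.log (1 / (s - 1)) -
      (∑ x : M ≃ₐ[ℚ] M, F x * Cf x) / (2 * (Nat.card (M ≃ₐ[ℚ] M) : ℝ)) =
      ((∑ x : M ≃ₐ[ℚ] M, F x) * (2 * Real.log (1 / (s - 1))) - ∑ x : M ≃ₐ[ℚ] M, F x * Cf x) /
        (2 * (Nat.card (M ≃ₐ[ℚ] M) : ℝ)) := by
    field_simp
  rw [h7, div_le_iff₀ (by positivity)]
  linarith

end ClassSum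

end Fermat.Agent.DS.Cheb
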