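import Mathlib

/-!
# CHEB-D4: counting dominant elements in a subdirect product with a cyclic group

`count_dominant`: for surjective homs `r : G' →* G`, `κ : G' →* U` with `U` finite cyclic and
`n ^ k ∣ #U`, the number of `x : G'` with `r x ∈ S` and `n ∣ orderOf (κ x)` is at least
`#G' * (#S / #G - n / 2 ^ k)`.
-/

namespace Fermat.Agent.DS.Cheb.CountAux

/-- Fibres of a surjective group hom all have the size of the kernel:
`#{x | f x ∈ T} = #T * #ker f`. -/
theorem card_preimage_eq_mul_ker {G' H : Type*} [Group G'] [Group H]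
    (f : G' →* H) (hf : Function.Surjective f) (T : Set H) :
    Nat.card {x : G' // f x ∈ T} = Nat.card T * Nat.card f.ker := by
  rw [← Nat.card_prod]
  apply Nat.card_congr
  have hs : ∀ h, f (Function.surjInv hf h) = h := Function.surjInv_eq hf
  exact
    { toFun := fun x => (⟨f x.1, x.2⟩, ⟨(Function.surjInv hf (f x.1))⁻¹ * x.1, by
        simp [MonoidHom.mem_ker, hs]⟩)
      invFun := fun p => ⟨Function.surjInv hf p.1.1 * p.2.1, by
        have h2 := p.2.2
        rw [MonoidHom.mem_ker] at h2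
        simp [hs, h2]⟩
      left_inv := fun x => by simp
      right_inv := fun p => by
        have h2 := p.2.2
        rw [MonoidHom.mem_ker] at h2
        ext <;> simp [hs, h2] }

/-- Fibres of a surjective hom of finite groups: `#{x | f x ∈ T} * #H = #T * #G'`. -/
theorem card_preimage_mul_card {G' H : Type*} [Group G'] [Group H]
    (f : G' →* H) (hf : Function.Surjective f) (T : Set H) :
    Nat.card {x : G' // f x ∈ T} * Nat.card H = Nat.card T * Nat.card G' := by
  have h1 := card_preimage_eq_mul_ker f hf T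
  have h2 := card_preimage_eq_mul_ker f hf Set.univ
  have h3 : Nat.card {x : G' // f x ∈ (Set.univ : Set H)} = Nat.card G' :=
    Nat.card_congr (Equiv.subtypeUnivEquiv (fun _ => Set.mem_univ _))
  have h4 : Nat.card (Set.univ : Set H) = Nat.card H := Nat.card_congr (Equiv.Set.univ H)
  rw [h1, ← h3, h2, h4]; ring

/-- The arithmetic heart: if `d ∣ m`, `n ^ k ∣ m`, `k > 0` and `¬ n ∣ d`, then for some prime
`q ∣ n` we have `d ∣ m / q ^ k`. -/
theorem exists_prime_dvd_div_of_not_dvd {m d n k : ℕ} (hm : 0 < m) (hn : 0 < n) (hk : 0 < k)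
    (hnk : n ^ k ∣ m) (hd : d ∣ m) (h : ¬ n ∣ d) :
    ∃ q ∈ n.primeFactors, q ^ k ∣ m ∧ d ∣ m / q ^ k := by
  have hd0 : d ≠ 0 := by rintro rfl; exact h (dvd_zero _)
  have hn0 : n ≠ 0 := hn.ne'
  obtain ⟨q, hq, hlt⟩ : ∃ q, q.Prime ∧ d.factorization q < n.factorization q := by
    by_contra hcon
    push Not at hcon
    exact h ((Nat.factorization_prime_le_iff_dvd hn0 hd0).1 hcon)
  have hqn : q ∣ n := by
    by_contra hqn
    rw [Nat.factorization_eq_zero_of_not_dvd hqn] at hlt
    exact absurd hlt (Nat.not_lt_zero _)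
  have hqk : q ^ k ∣ m := (pow_dvd_pow_of_dvd hqn k).trans hnk
  refine ⟨q, Nat.mem_primeFactors.2 ⟨hq, hqn, hn0⟩, hqk, ?_⟩
  have hmq : m / q ^ k ≠ 0 := (Nat.div_pos (Nat.le_of_dvd hm hqk) (pow_pos hq.pos k)).ne'
  rw [← Nat.factorization_prime_le_iff_dvd hd0 hmq]
  intro p hp
  rw [Nat.factorization_div hqk, hq.factorization_pow]
  simp only [Finsupp.coe_tsub, Pi.sub_apply]
  have hdm : d.factorization p ≤ m.factorization p :=
    (Nat.factorization_prime_le_iff_dvd hd0 hm.ne').2 hd p hp
  by_cases hpq : p = q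
  · subst hpq
    rw [Finsupp.single_eq_same]
    have h1 : (n ^ k).factorization p ≤ m.factorization p :=
      (Nat.factorization_prime_le_iff_dvd (pow_ne_zero k hn0) hm.ne').2 hnk p hp
    rw [Nat.factorization_pow] at h1
    simp only [Finsupp.smul_apply, smul_eq_mul] at h1
    have h2 : k * d.factorization p + k ≤ k * n.factorization p := by
      have := Nat.mul_le_mul_left k hlt
      rw [Nat.mul_succ] at this
      exact this
    have h3 : d.factorization p ≤ k * d.factorization p := Nat.le_mul_of_pos_left _ hk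
    omega
  · rw [Finsupp.single_apply, if_neg (Ne.symm hpq)]
    simpa using hdm

open scoped Classical in
/-- In a finite cyclic group `U` with `n ^ k ∣ #U`, at most `n * #U / 2 ^ k` elements have order
not divisible by `n`. -/
theorem card_not_dvd_orderOf_le {U : Type*} [CommGroup U] [Finite U] [IsCyclic U] (n k : ℕ)
    (hn : 0 < n) (hk : 0 < k) (hnk : n ^ k ∣ Nat.card U) :
    (Nat.card {u : U // ¬ n ∣ orderOf u} : ℝ) ≤ (n : ℝ) * Nat.card U / 2 ^ k := by
  let _ := Fintype.ofFinite U
  have hm0 : 0 < Nat.card U := Nat.card_pos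
  have hsub : (Finset.univ.filter (fun u : U => ¬ n ∣ orderOf u)) ⊆
      n.primeFactors.biUnion
        (fun q => Finset.univ.filter (fun u : U => u ^ (Nat.card U / q ^ k) = 1)) := by
    intro u hu
    rw [Finset.mem_filter] at hu
    obtain ⟨q, hq, -, hdvd⟩ :=
      exists_prime_dvd_div_of_not_dvd hm0 hn hk hnk (orderOf_dvd_natCard u) hu.2
    rw [Finset.mem_biUnion]
    exact ⟨q, hq, by
      rw [Finset.mem_filter]; exact ⟨Finset.mem_univ _, orderOf_dvd_iff_pow_eq_one.1 hdvd⟩⟩
  have hcard : Nat.card {u : U // ¬ n ∣ orderOf u} =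
      (Finset.univ.filter (fun u : U => ¬ n ∣ orderOf u)).card := by
    rw [Nat.card_eq_fintype_card, Fintype.card_subtype]
  rw [hcard]
  calc ((Finset.univ.filter (fun u : U => ¬ n ∣ orderOf u)).card : ℝ)
      ≤ ((n.primeFactors.biUnion
        (fun q => Finset.univ.filter (fun u : U => u ^ (Nat.card U / q ^ k) = 1))).card : ℝ) := by
        exact_mod_cast Finset.card_le_card hsub
    _ ≤ ∑ q ∈ n.primeFactors,
          ((Finset.univ.filter (fun u : U => u ^ (Nat.card U / q ^ k) = 1)).card : ℝ) := by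
        exact_mod_cast Finset.card_biUnion_le
    _ ≤ ∑ _q ∈ n.primeFactors, (Nat.card U : ℝ) / 2 ^ k := by
        apply Finset.sum_le_sum
        intro q hq
        have hqp := (Nat.mem_primeFactors.1 hq).1
        have hqn := (Nat.mem_primeFactors.1 hq).2.1
        have hqk : q ^ k ∣ Nat.card U := (pow_dvd_pow_of_dvd hqn k).trans hnk
        have hpos : 0 < Nat.card U / q ^ k :=
          Nat.div_pos (Nat.le_of_dvd hm0 hqk) (pow_pos hqp.pos k)
        have h1 : (Finset.univ.filter (fun u : U => u ^ (Nat.card U / q ^ k) = 1)).card ≤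
            Nat.card U / q ^ k := IsCyclic.card_pow_eq_one_le hpos
        have hq0 : ((q ^ k : ℕ) : ℝ) ≠ 0 := by
          exact_mod_cast (pow_pos hqp.pos k).ne'
        have h2 : ((Nat.card U / q ^ k : ℕ) : ℝ) = (Nat.card U : ℝ) / (q : ℝ) ^ k := by
          rw [Nat.cast_div hqk hq0]; push_cast; rfl
        have hq2 : (2 : ℝ) ≤ q := by exact_mod_cast hqp.two_le
        calc ((Finset.univ.filter (fun u : U => u ^ (Nat.card U / q ^ k) = 1)).card : ℝ)
            ≤ ((Nat.card U / q ^ k : ℕ) : ℝ) := by exact_mod_cast h1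
          _ = (Nat.card U : ℝ) / (q : ℝ) ^ k := h2
          _ ≤ (Nat.card U : ℝ) / 2 ^ k := by
              apply div_le_div_of_nonneg_left (by positivity) (by positivity)
              exact pow_le_pow_left₀ (by norm_num) hq2 k
    _ = n.primeFactors.card * ((Nat.card U : ℝ) / 2 ^ k) := by
        rw [Finset.sum_const, nsmul_eq_mul]
    _ ≤ (n : ℝ) * ((Nat.card U : ℝ) / 2 ^ k) := by
        apply mul_le_mul_of_nonneg_right _ (by positivity)
        have h1 : n.primeFactors.card ≤ n.divisors.card :=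
          Finset.card_le_card (fun p hp => by
            rw [Nat.mem_primeFactors] at hp
            exact Nat.mem_divisors.2 ⟨hp.2.1, hp.2.2⟩)
        exact_mod_cast h1.trans (Nat.card_divisors_le_self n)
    _ = (n : ℝ) * Nat.card U / 2 ^ k := by ring

end Fermat.Agent.DS.Cheb.CountAux

namespace Fermat.Agent.DS.Cheb

open CountAux in
/-- **CHEB-D4.** Counting dominant elements in a subdirect product with a cyclic group. -/
theorem count_dominant {G' G U : Type*} [Group G'] [Finite G'] [Group G] [Finite G]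
    [CommGroup U] [Finite U] [IsCyclic U]
    (r : G' →* G) (hr : Function.Surjective r) (κ : G' →* U) (hκ : Function.Surjective κ)
    (n k : ℕ) (hn : 0 < n) (hk : 0 < k) (hnk : n ^ k ∣ Nat.card U) (S : Set G) :
    (Nat.card G' : ℝ) * ((Nat.card S : ℝ) / Nat.card G - (n : ℝ) / 2 ^ k) ≤
      Nat.card {x : G' // r x ∈ S ∧ n ∣ orderOf (κ x)} := by
  have hG : (0 : ℝ) < Nat.card G := by exact_mod_cast Nat.card_pos
  have hU : (0 : ℝ) < Nat.card U := by exact_mod_cast Nat.card_pos
  have hG' : (0 : ℝ) ≤ Nat.card G' := by positivity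
  have hA := card_preimage_mul_card r hr S
  have hB := card_preimage_mul_card κ hκ {u : U | ¬ n ∣ orderOf u}
  have hBle := card_not_dvd_orderOf_le (U := U) n k hn hk hnk
  have hincl : Nat.card {x : G' // r x ∈ S} ≤
      Nat.card {x : G' // r x ∈ S ∧ n ∣ orderOf (κ x)} +
        Nat.card {x : G' // κ x ∈ {u : U | ¬ n ∣ orderOf u}} := by
    have e1 : Nat.card {x : G' // r x ∈ S} = Set.ncard {x : G' | r x ∈ S} :=
      Nat.card_coe_set_eq _
    have e2 : Nat.card {x : G' // r x ∈ S ∧ n ∣ orderOf (κ x)} =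
        Set.ncard {x : G' | r x ∈ S ∧ n ∣ orderOf (κ x)} := Nat.card_coe_set_eq _
    have e3 : Nat.card {x : G' // κ x ∈ {u : U | ¬ n ∣ orderOf u}} =
        Set.ncard {x : G' | ¬ n ∣ orderOf (κ x)} := Nat.card_coe_set_eq _
    rw [e1, e2, e3]
    refine le_trans (Set.ncard_le_ncard ?_ (Set.toFinite _)) (Set.ncard_union_le _ _)
    intro x hx
    by_cases h : n ∣ orderOf (κ x)
    · exact Or.inl ⟨hx, h⟩
    · exact Or.inr h
  have hA' : (Nat.card {x : G' // r x ∈ S} : ℝ) = Nat.card G' * (Nat.card S / Nat.card G) := by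
    have : (Nat.card {x : G' // r x ∈ S} : ℝ) * Nat.card G = Nat.card S * Nat.card G' := by
      exact_mod_cast hA
    field_simp
    linarith
  have hB' : (Nat.card {x : G' // κ x ∈ {u : U | ¬ n ∣ orderOf u}} : ℝ) ≤
      Nat.card G' * ((n : ℝ) / 2 ^ k) := by
    have h1 : (Nat.card {x : G' // κ x ∈ {u : U | ¬ n ∣ orderOf u}} : ℝ) * Nat.card U =
        Nat.card {u : U // ¬ n ∣ orderOf u} * Nat.card G' := by
      exact_mod_cast hB
    have h2 : (Nat.card {x : G' // κ x ∈ {u : U | ¬ n ∣ orderOf u}} : ℝ) =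
        Nat.card G' * (Nat.card {u : U // ¬ n ∣ orderOf u} / Nat.card U) := by
      field_simp
      linarith
    rw [h2]
    apply mul_le_mul_of_nonneg_left _ hG'
    rw [div_le_iff₀ hU]
    calc (Nat.card {u : U // ¬ n ∣ orderOf u} : ℝ) ≤ (n : ℝ) * Nat.card U / 2 ^ k := hBle
      _ = (n : ℝ) / 2 ^ k * Nat.card U := by ring
  have hincl' : (Nat.card {x : G' // r x ∈ S} : ℝ) ≤
      Nat.card {x : G' // r x ∈ S ∧ n ∣ orderOf (κ x)} +
        Nat.card {x : G' // κ x ∈ {u : U | ¬ n ∣ orderOf u}} := by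
    exact_mod_cast hincl
  rw [mul_sub, ← hA']
  linarith

end Fermat.Agent.DS.Cheb
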