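import Mathlib
import Fermat.Agent.CFT.Recip.OmegaExists
import Fermat.Agent.DS.Cheb.ClassSum
import Fermat.Agent.DS.Cheb.Count

/-!
# Cyclotomic crossing: Galois-theoretic bookkeeping

`L/ℚ` a Galois number field, `M = L(ζ_m)`.  Restriction `r : Gal(M/ℚ) → Gal(L/ℚ)` and cyclotomic
character `κ : Gal(M/ℚ) → (ℤ/m)ˣ`:

* `isArithFrobAt_restrictNormal_int`, `class_restrict_frobElt`: Frobenius elements restrict;
* `autToPow_surjective`: `κ` is surjective;
* `eq_one_of_restrict_of_autToPow`: `(r, κ)` is injective;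
* `crossWeight`: the class function `x ↦ f (r x)` cut down to the elements with
  `n ∣ orderOf (κ x)`, its symmetry properties and its mean.
-/

set_option autoImplicit false
set_option linter.unusedSectionVars false

namespace Fermat.Agent.DS.Cheb

open NumberField

section Restrict

variable {L M : Type*} [Field L] [NumberField L] [IsGalois ℚ L] [Field M] [NumberField M]
  [IsGalois ℚ M] [Algebra L M]

theorem isArithFrobAt_restrictNormal_int (P : Ideal (𝓞 M)) [P.IsPrime] (φ : M ≃ₐ[ℚ] M)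
    (hφ : IsArithFrobAt ℤ φ P) :
    IsArithFrobAt ℤ (AlgEquiv.restrictNormal φ L) (P.under (𝓞 L)) := by
  intro x
  have h1 := hφ (algebraMap (𝓞 L) (𝓞 M) x)
  have hunder : (P.under (𝓞 L)).under ℤ = P.under ℤ := Ideal.under_under P
  rw [hunder]
  have h2 : algebraMap (𝓞 L) (𝓞 M)
      ((MulSemiringAction.toAlgHom ℤ (𝓞 L) (AlgEquiv.restrictNormal φ L)) x) =
      (MulSemiringAction.toAlgHom ℤ (𝓞 M) φ) (algebraMap (𝓞 L) (𝓞 M) x) := by
    apply RingOfIntegers.ext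
    exact AlgEquiv.restrictNormal_commutes φ L (x : L)
  rw [Ideal.under_def, Ideal.mem_comap, map_sub, map_pow, h2]
  exact h1

/-- A class function takes the same value at the restriction of the chosen Frobenius of `M` and
at the chosen Frobenius of `L` (for `p ∤ disc L`). -/
theorem class_restrict_frobElt (f : (L ≃ₐ[ℚ] L) → ℝ) (hconj : ∀ g h, f (h * g * h⁻¹) = f g)
    (p : Nat.Primes) (hpd : ¬ (((p : ℕ) : ℤ)) ∣ NumberField.discr L) :
    f (AlgEquiv.restrictNormalHom L (frobElt M p)) = f (frobElt L p) := by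
  have h1 := isArithFrobAt_restrictNormal_int (L := L) (pAbove M p) (frobElt M p)
    (isArithFrobAt_frobElt M p)
  have hmem : ((p : ℕ) : 𝓞 L) ∈ (pAbove M p).under (𝓞 L) := by
    rw [Ideal.under_def, Ideal.mem_comap, map_natCast]
    exact natCast_mem_pAbove M p
  obtain ⟨y, hy⟩ := (isFrob_iff L p hpd _).mp ⟨_, inferInstance, hmem, h1⟩
  have e : AlgEquiv.restrictNormalHom L (frobElt M p) =
      AlgEquiv.restrictNormal (frobElt M p) L := rfl
  rw [e, ← hy, hconj]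

end Restrict

section Cyclo

variable {M : Type*} [Field M] [NumberField M] [IsGalois ℚ M] {m : ℕ} [NeZero m] {ζ : M}
  (hζ : IsPrimitiveRoot ζ m)

include hζ in
theorem autToPow_surjective : Function.Surjective (hζ.autToPow ℚ) := by
  intro u
  have hm : 0 < m := NeZero.pos m
  have hu : IsPrimitiveRoot (ζ ^ (u : ZMod m).val) m :=
    hζ.pow_of_coprime _ (ZMod.val_coe_unit_coprime u)
  have e : minpoly ℚ (ζ ^ (u : ZMod m).val) = minpoly ℚ ζ := by
    rw [← Polynomial.cyclotomic_eq_minpoly_rat hu hm, ← Polynomial.cyclotomic_eq_minpoly_rat hζ hm]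
  obtain ⟨σ, hσ⟩ := (Normal.minpoly_eq_iff_mem_orbit M).mp e
  refine ⟨σ, ?_⟩
  have h2 := hζ.autToPow_spec ℚ σ
  have h3 : σ ζ = ζ ^ (u : ZMod m).val := hσ
  rw [h3] at h2
  have h4 := hζ.pow_inj (ZMod.val_lt _) (ZMod.val_lt _) h2
  exact Units.ext (ZMod.val_injective m h4)

variable {L : Type*} [Field L] [NumberField L] [IsGalois ℚ L] [Algebra L M]
  [IsCyclotomicExtension {m} L M]

include hζ in
theorem eq_one_of_restrict_of_autToPow (hm1 : 1 < m) (σ : M ≃ₐ[ℚ] M)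
    (h1 : AlgEquiv.restrictNormalHom L σ = 1) (h2 : hζ.autToPow ℚ σ = 1) : σ = 1 := by
  refine Fermat.Agent.CFT.Recip.omx_ext (L := L) hζ σ 1 (fun x => ?_) ?_
  · have h := AlgEquiv.restrictNormal_commutes σ L x
    have e : σ.restrictNormal L = AlgEquiv.restrictNormalHom L σ := rfl
    rw [e, h1] at h
    simpa using h.symm
  · have h := hζ.autToPow_spec ℚ σ
    rw [h2, Units.val_one, ZMod.val_one_eq_one_mod, Nat.mod_eq_of_lt hm1, pow_one] at h
    simpa using h.symm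

end Cyclo

section Weight

variable {L M : Type*} [Field L] [NumberField L] [IsGalois ℚ L] [Field M] [NumberField M]
  [IsGalois ℚ M] [Algebra L M] {m : ℕ} [NeZero m] {ζ : M} (hζ : IsPrimitiveRoot ζ m)

open Classical in
/-- The class function `x ↦ f (x|L)` on `Gal(M/ℚ)`, cut down to the elements `x` with
`n ∣ orderOf (κ x)`. -/
noncomputable def crossWeight (f : (L ≃ₐ[ℚ] L) → ℝ) (n : ℕ) (x : M ≃ₐ[ℚ] M) : ℝ :=
  if n ∣ orderOf (hζ.autToPow ℚ x) then f (AlgEquiv.restrictNormalHom L x) else 0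

theorem crossWeight_nonneg (f : (L ≃ₐ[ℚ] L) → ℝ) (hf0 : ∀ g, 0 ≤ f g) (n : ℕ)
    (x : M ≃ₐ[ℚ] M) : 0 ≤ crossWeight hζ f n x := by
  unfold crossWeight
  split_ifs
  · exact hf0 _
  · exact le_rfl

theorem crossWeight_le (f : (L ≃ₐ[ℚ] L) → ℝ) (hf0 : ∀ g, 0 ≤ f g) (n : ℕ)
    (x : M ≃ₐ[ℚ] M) : crossWeight hζ f n x ≤ f (AlgEquiv.restrictNormalHom L x) := by
  unfold crossWeight
  split_ifs
  · exact le_rfl
  · exact hf0 _

theorem crossWeight_of_dvd (f : (L ≃ₐ[ℚ] L) → ℝ) (n : ℕ) (x : M ≃ₐ[ℚ] M)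
    (h : n ∣ orderOf (hζ.autToPow ℚ x)) :
    crossWeight hζ f n x = f (AlgEquiv.restrictNormalHom L x) := by
  unfold crossWeight
  rw [if_pos h]

theorem crossWeight_conj (f : (L ≃ₐ[ℚ] L) → ℝ) (hconj : ∀ g h, f (h * g * h⁻¹) = f g) (n : ℕ)
    (g h : M ≃ₐ[ℚ] M) : crossWeight hζ f n (h * g * h⁻¹) = crossWeight hζ f n g := by
  unfold crossWeight
  rw [autToPow_conj hζ h g, map_mul, map_mul, map_inv, hconj]

theorem crossWeight_inv (f : (L ≃ₐ[ℚ] L) → ℝ) (hinv : ∀ g, f g⁻¹ = f g) (n : ℕ)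
    (g : M ≃ₐ[ℚ] M) : crossWeight hζ f n g⁻¹ = crossWeight hζ f n g := by
  unfold crossWeight
  rw [map_inv, orderOf_inv, map_inv, hinv]

theorem crossWeight_dom [IsCyclotomicExtension {m} L M] (hm1 : 1 < m) (f : (L ≃ₐ[ℚ] L) → ℝ)
    (x : M ≃ₐ[ℚ] M) (hx : crossWeight hζ f (Nat.card (L ≃ₐ[ℚ] L)) x ≠ 0) :
    ∀ y ∈ Subgroup.zpowers x, hζ.autToPow ℚ y = 1 → y = 1 := by
  have hdvd : Nat.card (L ≃ₐ[ℚ] L) ∣ orderOf (hζ.autToPow ℚ x) := by
    by_contra h
    apply hx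
    unfold crossWeight
    rw [if_neg h]
  intro y hy hκ
  obtain ⟨j, rfl⟩ := Subgroup.mem_zpowers_iff.mp hy
  have hκ' := hκ
  rw [map_zpow] at hκ'
  have h1 : (orderOf (hζ.autToPow ℚ x) : ℤ) ∣ j := orderOf_dvd_iff_zpow_eq_one.mpr hκ'
  have h2 : ((Nat.card (L ≃ₐ[ℚ] L) : ℕ) : ℤ) ∣ j := (Int.natCast_dvd_natCast.mpr hdvd).trans h1
  obtain ⟨i, rfl⟩ := h2
  refine eq_one_of_restrict_of_autToPow (L := L) hζ hm1 _ ?_ hκ
  rw [map_zpow, zpow_mul, zpow_natCast, pow_card_eq_one', one_zpow]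

end Weight

end Fermat.Agent.DS.Cheb
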