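import Mathlib
import Fermat.Agent.DS.Cheb.Count

/-!
# CHEB-D4b: the mean of a class function cut down to dominant elements

`mean_cut`: for surjective homs `r : G' →* G`, `κ : G' →* U` with `U` finite cyclic and
`n ^ k ∣ #U`, a weight `w ≥ 0` on `G'` which agrees with `f ∘ r` on the elements `x` with
`n ∣ orderOf (κ x)` has mean at least `mean f - B * n / 2 ^ k`, where `B ≥ 0` bounds `f`.
-/

set_option autoImplicit false

namespace Fermat.Agent.DS.Cheb

open CountAux

open scoped Classical in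
/-- The sum of `f ∘ r` over `G'` is `#G' / #G` times the sum of `f` over `G`. -/
theorem sum_comp_surjective_hom {G' G : Type*} [Group G'] [Fintype G'] [Group G] [Fintype G]
    (r : G' →* G) (hr : Function.Surjective r) (f : G → ℝ) :
    (∑ x : G', f (r x)) * (Nat.card G : ℝ) = (Nat.card G' : ℝ) * ∑ g : G, f g := by
  have hfibre : ∀ g : G,
      ((Finset.univ.filter (fun x : G' => r x = g)).card : ℝ) * (Nat.card G : ℝ)
        = (Nat.card G' : ℝ) := by
    intro g
    have h1 := card_preimage_mul_card r hr ({g} : Set G)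
    have h2 : Nat.card {x : G' // r x ∈ ({g} : Set G)}
        = (Finset.univ.filter (fun x : G' => r x = g)).card := by
      rw [Nat.card_eq_fintype_card, Fintype.card_subtype]
      rfl
    have h3 : Nat.card ({g} : Set G) = 1 := by
      rw [Nat.card_eq_fintype_card]
      simp
    rw [h2, h3, one_mul] at h1
    exact_mod_cast h1
  rw [← Finset.sum_fiberwise (s := Finset.univ) (g := fun x : G' => r x)
    (f := fun x : G' => f (r x)), Finset.sum_mul, Finset.mul_sum]
  apply Finset.sum_congr rfl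
  intro g _
  have : ∑ x ∈ Finset.univ.filter (fun x : G' => r x = g), f (r x)
      = ((Finset.univ.filter (fun x : G' => r x = g)).card : ℝ) * f g := by
    rw [Finset.sum_congr rfl (fun x hx => by rw [(Finset.mem_filter.mp hx).2] :
      ∀ x ∈ Finset.univ.filter (fun x : G' => r x = g), f (r x) = f g)]
    rw [Finset.sum_const, nsmul_eq_mul]
  rw [this, mul_right_comm, hfibre g]

open scoped Classical in
/-- **CHEB-D4b.** The mean of a class function cut down to dominant elements. -/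
theorem mean_cut {G' G U : Type*} [Group G'] [Fintype G'] [Group G] [Fintype G]
    [CommGroup U] [Finite U] [IsCyclic U]
    (r : G' →* G) (hr : Function.Surjective r) (κ : G' →* U) (hκ : Function.Surjective κ)
    (n k : ℕ) (hn : 0 < n) (hk : 0 < k) (hnk : n ^ k ∣ Nat.card U)
    (f : G → ℝ) (B : ℝ) (hB0 : 0 ≤ B) (hfB : ∀ g, f g ≤ B)
    (w : G' → ℝ) (hw0 : ∀ x, 0 ≤ w x) (hw : ∀ x, n ∣ orderOf (κ x) → w x = f (r x)) :
    (∑ g : G, f g) / (Nat.card G : ℝ) - B * (n : ℝ) / 2 ^ k
      ≤ (∑ x : G', w x) / (Nat.card G' : ℝ) := by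
  have hG : (0 : ℝ) < Nat.card G := by exact_mod_cast Nat.card_pos
  have hG' : (0 : ℝ) < Nat.card G' := by exact_mod_cast Nat.card_pos
  have hU : (0 : ℝ) < Nat.card U := by exact_mod_cast Nat.card_pos
  -- pointwise bound
  have hpt : ∀ x, f (r x) - (if n ∣ orderOf (κ x) then 0 else B) ≤ w x := by
    intro x
    by_cases h : n ∣ orderOf (κ x)
    · rw [if_pos h, sub_zero, hw x h]
    · rw [if_neg h]
      linarith [hw0 x, hfB (r x)]
  have hsum : ∑ x : G', (f (r x) - (if n ∣ orderOf (κ x) then 0 else B)) ≤ ∑ x : G', w x :=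
    Finset.sum_le_sum (fun x _ => hpt x)
  rw [Finset.sum_sub_distrib] at hsum
  -- the non-dominant count
  have hcount : ∑ x : G', (if n ∣ orderOf (κ x) then (0 : ℝ) else B)
      = (Nat.card {x : G' // κ x ∈ {u : U | ¬ n ∣ orderOf u}} : ℝ) * B := by
    rw [Finset.sum_ite, Finset.sum_const_zero, zero_add, Finset.sum_const, nsmul_eq_mul]
    congr 2
    rw [Nat.card_eq_fintype_card, Fintype.card_subtype]
    rfl
  have hB := card_preimage_mul_card κ hκ {u : U | ¬ n ∣ orderOf u}
  have hBle := card_not_dvd_orderOf_le (U := U) n k hn hk hnk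
  have hB' : (Nat.card {x : G' // κ x ∈ {u : U | ¬ n ∣ orderOf u}} : ℝ) ≤
      Nat.card G' * ((n : ℝ) / 2 ^ k) := by
    have h1 : (Nat.card {x : G' // κ x ∈ {u : U | ¬ n ∣ orderOf u}} : ℝ) * Nat.card U =
        Nat.card {u : U // ¬ n ∣ orderOf u} * Nat.card G' := by
      exact_mod_cast hB
    have h2 : (Nat.card {x : G' // κ x ∈ {u : U | ¬ n ∣ orderOf u}} : ℝ) =
        Nat.card G' * (Nat.card {u : U // ¬ n ∣ orderOf u} / Nat.card U) := by
      field_simp
      linarith
    rw [h2]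
    apply mul_le_mul_of_nonneg_left _ hG'.le
    rw [div_le_iff₀ hU]
    calc (Nat.card {u : U // ¬ n ∣ orderOf u} : ℝ) ≤ (n : ℝ) * Nat.card U / 2 ^ k := hBle
      _ = (n : ℝ) / 2 ^ k * Nat.card U := by ring
  have hfib := sum_comp_surjective_hom r hr f
  have hfib' : ∑ x : G', f (r x) = (Nat.card G' : ℝ) * ((∑ g : G, f g) / (Nat.card G : ℝ)) := by
    field_simp
    linarith
  rw [hcount, hfib'] at hsum
  rw [le_div_iff₀ hG']
  have hBn : (Nat.card {x : G' // κ x ∈ {u : U | ¬ n ∣ orderOf u}} : ℝ) * B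
      ≤ Nat.card G' * ((n : ℝ) / 2 ^ k) * B := mul_le_mul_of_nonneg_right hB' hB0
  calc ((∑ g : G, f g) / (Nat.card G : ℝ) - B * (n : ℝ) / 2 ^ k) * (Nat.card G' : ℝ)
      = (Nat.card G' : ℝ) * ((∑ g : G, f g) / (Nat.card G : ℝ))
          - Nat.card G' * ((n : ℝ) / 2 ^ k) * B := by ring
    _ ≤ (Nat.card G' : ℝ) * ((∑ g : G, f g) / (Nat.card G : ℝ))
          - (Nat.card {x : G' // κ x ∈ {u : U | ¬ n ∣ orderOf u}} : ℝ) * B := by linarith
    _ ≤ ∑ x : G', w x := hsum

end Fermat.Agent.DS.Cheb
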