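import Mathlib
import Fermat.Agent.DS.Cheb.Cross
import Fermat.Agent.DS.Cheb.MeanCut

/-!
# Symmetric Chebotarev density for a Galois number field over `ℚ` (weighted, lower bound)

`cheb_weighted_core`: for a Galois number field `L/ℚ` and a class function `f ≥ 0` on
`Gal(L/ℚ)` with `f g⁻¹ = f g`: for every `ε > 0` there is `δ > 0` such that for all
`s ∈ (1, 1 + δ)` there is a finite set `T` of primes unramified in `L` (and outside a given
finite set) with

`(mean f - ε) · log (1/(s-1)) ≤ ∑_{p ∈ T} f(σ_p) p^(-s)`,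

`σ_p = frobElt L p` the chosen Frobenius at `p`.  Proof: Chebotarev's crossing with the
cyclotomic field `ℚ(ζ_m)`, `m ≡ 1 mod (#G)^k` prime.
-/

set_option autoImplicit false
set_option linter.unusedSectionVars false

namespace Fermat.Agent.DS.Cheb

open NumberField

theorem finite_primes_le (B : ℕ) : {p : Nat.Primes | (p : ℕ) ≤ B}.Finite :=
  (Set.finite_Iic B).preimage (Subtype.val_injective.injOn)

/-- The primes `≤ B`, as a finite set of `Nat.Primes`. -/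
noncomputable def primesLE (B : ℕ) : Finset Nat.Primes := (finite_primes_le B).toFinset

theorem lt_of_notMem_primesLE {B : ℕ} {p : Nat.Primes} (h : p ∉ primesLE B) : B < (p : ℕ) := by
  rw [primesLE, Set.Finite.mem_toFinset, Set.mem_ofPred_eq] at h
  omega

theorem not_dvd_of_natAbs_lt {d : ℤ} (hd : d ≠ 0) {p : ℕ} (h : d.natAbs < p) :
    ¬ ((p : ℤ) ∣ d) := by
  intro hdvd
  have h1 : p ∣ d.natAbs := Int.natCast_dvd.mp hdvd
  have h2 := Nat.le_of_dvd (Int.natAbs_pos.mpr hd) h1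
  omega

section Step

variable {L : Type*} [Field L] [NumberField L] [IsGalois ℚ L]

/-- One crossing step: the lower bound with the defect `B · #G / 2^k`. -/
theorem crossing_step (M : Type*) [Field M] [NumberField M] [Algebra L M] {m : ℕ}
    [Fact m.Prime] [IsCyclotomicExtension {m} L M]
    (k : ℕ) (hk : 0 < k) (hnk : (Nat.card (L ≃ₐ[ℚ] L)) ^ k ∣ m - 1)
    (f : (L ≃ₐ[ℚ] L) → ℝ) (hf0 : ∀ g, 0 ≤ f g) (hconj : ∀ g h, f (h * g * h⁻¹) = f g)
    (hinv : ∀ g, f g⁻¹ = f g) (B : ℝ) (hB : ∀ g, f g ≤ B) (bad₀ : Finset ℕ) :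
    ∃ (bad : Finset Nat.Primes) (C : ℝ),
      (∀ p : Nat.Primes, p ∉ bad →
        (p : ℕ) ∉ bad₀ ∧ ¬ (((p : ℕ) : ℤ)) ∣ NumberField.discr L) ∧
      ∀ s : ℝ, 1 < s → s ≤ 2 →
        Summable (fun p : Nat.Primes => if p ∈ bad then 0 else
          f (frobElt L p) * ((p : ℕ) : ℝ) ^ (-s)) ∧
        ((∑ g : L ≃ₐ[ℚ] L, f g) / (Nat.card (L ≃ₐ[ℚ] L) : ℝ) -
            B * (Nat.card (L ≃ₐ[ℚ] L) : ℝ) / 2 ^ k) * Real.log (1 / (s - 1)) - C ≤
          ∑' p : Nat.Primes, (if p ∈ bad then 0 else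
            f (frobElt L p) * ((p : ℕ) : ℝ) ^ (-s)) := by
  have hmp : m.Prime := Fact.out
  have : NeZero m := ⟨hmp.ne_zero⟩
  have : IsGalois ℚ M :=
    Fermat.Agent.CFT.Recip.isGalois_of_isCyclotomicExtension (K := ℚ) (L := L) m
  have hζ : IsPrimitiveRoot (IsCyclotomicExtension.zeta m L M) m :=
    IsCyclotomicExtension.zeta_spec m L M
  set n : ℕ := Nat.card (L ≃ₐ[ℚ] L) with hn
  have hnpos : 0 < n := Nat.card_pos
  -- the excluded primes
  set Bd : ℕ := (NumberField.discr M).natAbs + m + (NumberField.discr L).natAbs + bad₀.sup id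
    with hBd
  set bad : Finset Nat.Primes := primesLE Bd with hbad
  have hbadM : ∀ p : Nat.Primes, p ∉ bad →
      ¬ (((p : ℕ) : ℤ)) ∣ NumberField.discr M ∧ ¬ (p : ℕ) ∣ m := by
    intro p hp
    have hlt := lt_of_notMem_primesLE hp
    refine ⟨not_dvd_of_natAbs_lt (NumberField.discr_ne_zero M) (by omega), fun hdvd => ?_⟩
    have := Nat.le_of_dvd hmp.pos hdvd
    omega
  have hbadL : ∀ p : Nat.Primes, p ∉ bad →
      (p : ℕ) ∉ bad₀ ∧ ¬ (((p : ℕ) : ℤ)) ∣ NumberField.discr L := by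
    intro p hp
    have hlt := lt_of_notMem_primesLE hp
    refine ⟨fun hmem => ?_, not_dvd_of_natAbs_lt (NumberField.discr_ne_zero L) (by omega)⟩
    have h1 : id (p : ℕ) ≤ bad₀.sup id := Finset.le_sup (f := id) hmem
    simp only [id] at h1
    omega
  -- the crossed weight
  set F : (M ≃ₐ[ℚ] M) → ℝ := crossWeight hζ f n with hF
  obtain ⟨C, hC⟩ := class_sum_weighted hζ bad hbadM F (crossWeight_nonneg hζ f hf0 n)
    (crossWeight_conj hζ f hconj n) (crossWeight_inv hζ f hinv n)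
    (fun x hx => crossWeight_dom (L := L) hζ hmp.one_lt f x hx)
  refine ⟨bad, C, hbadL, fun s hs1 hs2 => ?_⟩
  obtain ⟨hsumF, hlow⟩ := hC s hs1 hs2
  have hB0 : 0 ≤ B := (hf0 1).trans (hB 1)
  have htnn : ∀ p : Nat.Primes, 0 ≤ ((p : ℕ) : ℝ) ^ (-s) := fun p => prime_rpow_neg_nonneg p s
  have hsumf : Summable (fun p : Nat.Primes => if p ∈ bad then 0 else
      f (frobElt L p) * ((p : ℕ) : ℝ) ^ (-s)) := by
    refine Summable.of_nonneg_of_le (fun p => ?_) (fun p => ?_)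
      ((summable_primes_rpow hs1).mul_left B)
    · split_ifs
      · exact le_rfl
      · exact mul_nonneg (hf0 _) (htnn p)
    · split_ifs
      · exact mul_nonneg hB0 (htnn p)
      · exact mul_le_mul_of_nonneg_right (hB _) (htnn p)
  refine ⟨hsumf, ?_⟩
  have hpt : ∀ p : Nat.Primes,
      (if p ∈ bad then 0 else F (frobElt M p) * ((p : ℕ) : ℝ) ^ (-s)) ≤
      (if p ∈ bad then 0 else f (frobElt L p) * ((p : ℕ) : ℝ) ^ (-s)) := by
    intro p
    by_cases hp : p ∈ bad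
    · rw [if_pos hp, if_pos hp]
    · rw [if_neg hp, if_neg hp]
      refine mul_le_mul_of_nonneg_right ?_ (htnn p)
      rw [← class_restrict_frobElt (M := M) f hconj p (hbadL p hp).2]
      exact crossWeight_le hζ f hf0 n _
  have hle := Summable.tsum_le_tsum hpt hsumF hsumf
  -- the mean of the crossed weight
  have hcardU : n ^ k ∣ Nat.card (ZMod m)ˣ := by
    rw [Nat.card_eq_fintype_card, ZMod.card_units m]
    exact hnk
  have hmean := mean_cut (AlgEquiv.restrictNormalHom L : (M ≃ₐ[ℚ] M) →* (L ≃ₐ[ℚ] L))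
    (AlgEquiv.restrictNormalHom_surjective M) (hζ.autToPow ℚ) (autToPow_surjective hζ)
    n k hnpos hk hcardU f B hB0 hB F (crossWeight_nonneg hζ f hf0 n)
    (fun x hx => crossWeight_of_dvd hζ f n x hx)
  have hΛ : 0 ≤ Real.log (1 / (s - 1)) := by
    apply Real.log_nonneg
    rw [le_div_iff₀ (by linarith)]
    linarith
  have h1 := mul_le_mul_of_nonneg_right hmean hΛ
  linarith

end Step

/-- **Symmetric Chebotarev density theorem (weighted lower bound) for a Galois number field.** -/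
theorem cheb_weighted_core (L : Type*) [Field L] [NumberField L] [IsGalois ℚ L]
    (f : (L ≃ₐ[ℚ] L) → ℝ) (hf0 : ∀ g, 0 ≤ f g) (hconj : ∀ g h, f (h * g * h⁻¹) = f g)
    (hinv : ∀ g, f g⁻¹ = f g) (bad₀ : Finset ℕ) (ε : ℝ) (hε : 0 < ε) :
    ∃ δ : ℝ, 0 < δ ∧ ∀ s : ℝ, 1 < s → s < 1 + δ → ∃ T : Finset Nat.Primes,
      (∀ p ∈ T, (p : ℕ) ∉ bad₀ ∧ ¬ (((p : ℕ) : ℤ)) ∣ NumberField.discr L) ∧
      ((∑ g : L ≃ₐ[ℚ] L, f g) / (Nat.card (L ≃ₐ[ℚ] L) : ℝ) - ε) * Real.log (1 / (s - 1)) ≤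
        ∑ p ∈ T, f (frobElt L p) * ((p : ℕ) : ℝ) ^ (-s) := by
  classical
  set n : ℕ := Nat.card (L ≃ₐ[ℚ] L) with hn
  have hnpos : 0 < n := Nat.card_pos
  set B : ℝ := ∑ g : L ≃ₐ[ℚ] L, f g with hBdef
  have hB : ∀ g, f g ≤ B := fun g =>
    Finset.single_le_sum (fun y _ => hf0 y) (Finset.mem_univ g)
  have hB0 : 0 ≤ B := (hf0 1).trans (hB 1)
  -- choose `k`
  obtain ⟨k₀, hk₀⟩ := pow_unbounded_of_one_lt (4 * B * n / ε) (one_lt_two : (1 : ℝ) < 2)
  set k : ℕ := k₀ + 1 with hk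
  have hkpos : 0 < k := Nat.succ_pos _
  have hdefect : B * (n : ℝ) / 2 ^ k ≤ ε / 4 := by
    have h2 : (2 : ℝ) ^ k₀ ≤ 2 ^ k := by
      rw [hk]
      exact pow_le_pow_right₀ (by norm_num) (Nat.le_succ _)
    have h3 : 4 * B * n / ε < 2 ^ k := lt_of_lt_of_le hk₀ h2
    rw [div_lt_iff₀ hε] at h3
    rw [div_le_iff₀ (by positivity)]
    linarith
  -- choose `m`
  obtain ⟨m, hmp, -, hmod⟩ := Nat.exists_prime_gt_modEq_one (k := n ^ k) 0
    (pow_ne_zero k hnpos.ne')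
  have : Fact m.Prime := ⟨hmp⟩
  have : NeZero m := ⟨hmp.ne_zero⟩
  have hnk : n ^ k ∣ m - 1 := (Nat.modEq_iff_dvd' hmp.one_lt.le).mp hmod.symm
  obtain ⟨bad, C, hbad, hC⟩ := crossing_step (L := L) (CyclotomicField m L) k hkpos hnk f
    hf0 hconj hinv B hB bad₀
  refine ⟨min (1 / 2) (Real.exp (-(4 * |C| / ε))), lt_min (by norm_num) (Real.exp_pos _),
    fun s hs1 hsδ => ?_⟩
  have hs_half : s - 1 < 1 / 2 := by
    have := lt_of_lt_of_le hsδ (add_le_add_right (min_le_left _ _) 1)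
    linarith
  have hs_exp : s - 1 < Real.exp (-(4 * |C| / ε)) := by
    have := lt_of_lt_of_le hsδ (add_le_add_right (min_le_right _ _) 1)
    linarith
  have hs2 : s ≤ 2 := by linarith
  have hs0 : 0 < s - 1 := by linarith
  set Λ : ℝ := Real.log (1 / (s - 1)) with hΛdef
  have hΛeq : Λ = -Real.log (s - 1) := by
    rw [hΛdef, one_div, Real.log_inv]
  have hΛC : 4 * |C| / ε < Λ := by
    have h1 : Real.log (s - 1) < -(4 * |C| / ε) := by
      rw [Real.log_lt_iff_lt_exp hs0]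
      exact hs_exp
    rw [hΛeq]
    linarith
  have hΛpos : 0 < Λ := lt_of_le_of_lt (by positivity) hΛC
  have hCΛ : C ≤ ε / 4 * Λ := by
    have h1 : |C| < ε / 4 * Λ := by
      rw [div_lt_iff₀ hε] at hΛC
      linarith
    exact (le_abs_self C).trans h1.le
  obtain ⟨hsum, hlow⟩ := hC s hs1 hs2
  set g : Nat.Primes → ℝ := fun p => if p ∈ bad then 0 else
    f (frobElt L p) * ((p : ℕ) : ℝ) ^ (-s) with hg
  have hgnn : ∀ p, 0 ≤ g p := by
    intro p
    rw [hg]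
    show 0 ≤ (if p ∈ bad then 0 else f (frobElt L p) * ((p : ℕ) : ℝ) ^ (-s))
    split_ifs
    · exact le_rfl
    · exact mul_nonneg (hf0 _) (prime_rpow_neg_nonneg p s)
  -- a finite partial sum close to the series
  have hη : 0 < ε / 2 * Λ := by positivity
  obtain ⟨T₀, hT₀⟩ : ∃ T₀ : Finset Nat.Primes, ∑' p, g p - ε / 2 * Λ < ∑ p ∈ T₀, g p := by
    by_contra hcon
    push Not at hcon
    have := Real.tsum_le_of_sum_le hgnn hcon
    linarith
  refine ⟨T₀.filter (fun p => p ∉ bad), fun p hp => hbad p (Finset.mem_filter.mp hp).2, ?_⟩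
  have hTsum : ∑ p ∈ T₀.filter (fun p => p ∉ bad), f (frobElt L p) * ((p : ℕ) : ℝ) ^ (-s) =
      ∑ p ∈ T₀, g p := by
    rw [Finset.sum_filter]
    refine Finset.sum_congr rfl fun p _ => ?_
    rw [hg]
    show (if p ∉ bad then f (frobElt L p) * ((p : ℕ) : ℝ) ^ (-s) else 0) =
      (if p ∈ bad then 0 else f (frobElt L p) * ((p : ℕ) : ℝ) ^ (-s))
    by_cases hp : p ∈ bad
    · simp [hp]
    · simp [hp]
  rw [hTsum]
  have h1 : B * (n : ℝ) / 2 ^ k * Λ ≤ ε / 4 * Λ := mul_le_mul_of_nonneg_right hdefect hΛpos.le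
  have h2 : ((∑ g : L ≃ₐ[ℚ] L, f g) / (n : ℝ) - B * (n : ℝ) / 2 ^ k) * Λ - C ≤ ∑' p, g p := hlow
  have h3 : (B / (n : ℝ) - ε) * Λ = B / (n : ℝ) * Λ - ε * Λ := by ring
  have h4 : (B / (n : ℝ) - B * (n : ℝ) / 2 ^ k) * Λ =
      B / (n : ℝ) * Λ - B * (n : ℝ) / 2 ^ k * Λ := by ring
  rw [h3]
  rw [h4] at h2
  linarith

end Fermat.Agent.DS.Cheb
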