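import Mathlib
import Fermat.Agent.DS.Cheb.Main
import Fermat.Agent.DS.Cheb.Bridge

/-!
# Symmetric Chebotarev: unconditional final forms

Wiring of the number-field core `cheb_weighted_core` (`DS/Cheb/Main.lean`) into the
`Gal(ℚ̄/ℚ)` / `ValuationSubring` forms of `DS/Cheb/Bridge.lean` and the glue proposition
`ChebHom.ChebSymK` / theorem `ChebHom.cheb_sym_hom` of `DS/ChebHom.lean`.
-/

set_option autoImplicit false

namespace Fermat.Agent.DS.Cheb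

local notation "Qbar" => AlgebraicClosure ℚ
local notation "GQ" => (AlgebraicClosure ℚ ≃ₐ[ℚ] AlgebraicClosure ℚ)

/-- The number-field core statement consumed by `DS/Cheb/Bridge.lean` holds. -/
theorem coreStatement : CoreStatement :=
  fun L _ _ _ f hf0 hconj hinv bad ε hε => cheb_weighted_core L f hf0 hconj hinv bad ε hε

/-- **Symmetric Chebotarev, weighted `Gal(ℚ̄/ℚ)` form** (unconditional). -/
theorem cheb_sym_GQ_weighted (K : IntermediateField ℚ Qbar)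
    [FiniteDimensional ℚ K] [IsGalois ℚ K] (f : (K ≃ₐ[ℚ] K) → ℝ) (hf0 : ∀ g, 0 ≤ f g)
    (hconj : ∀ g h, f (h * g * h⁻¹) = f g) (hinv : ∀ g, f g⁻¹ = f g) (bad : Finset ℕ) (ε : ℝ)
    (hε : 0 < ε) :
    ∃ δ : ℝ, 0 < δ ∧ ∀ s : ℝ, 1 < s → s < 1 + δ →
      ∃ (T : Finset ℕ) (A : ℕ → ValuationSubring Qbar) (σ : ℕ → GQ),
      (∀ p ∈ T, p.Prime ∧ p ∉ bad ∧ (A p).LiesOverPrime p ∧ (A p).IsFrobeniusAt (σ p) p) ∧
      ((∑ g : K ≃ₐ[ℚ] K, f g) / (Nat.card (K ≃ₐ[ℚ] K) : ℝ) - ε) * Real.log (1 / (s - 1)) ≤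
        ∑ p ∈ T, f (AlgEquiv.restrictNormalHom K (σ p)) * (p : ℝ) ^ (-s) :=
  cheb_sym_GQ_weighted_of_core coreStatement K f hf0 hconj hinv bad ε hε

/-- **Symmetric Chebotarev, set form for `Gal(ℚ̄/ℚ)`** (unconditional). -/
theorem cheb_sym_GQ (K : IntermediateField ℚ Qbar)
    [FiniteDimensional ℚ K] [IsGalois ℚ K] (S : Set (K ≃ₐ[ℚ] K))
    (hconj : ∀ g h, g ∈ S → h * g * h⁻¹ ∈ S) (hinv : ∀ g ∈ S, g⁻¹ ∈ S) (bad : Finset ℕ) (ε : ℝ)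
    (hε : 0 < ε) :
    ∃ δ : ℝ, 0 < δ ∧ ∀ s : ℝ, 1 < s → s < 1 + δ → ∃ T : Finset ℕ,
      (∀ p ∈ T, p.Prime ∧ p ∉ bad ∧ ∃ (A : ValuationSubring Qbar) (σ : GQ),
        A.LiesOverPrime p ∧ A.IsFrobeniusAt σ p ∧ AlgEquiv.restrictNormalHom K σ ∈ S) ∧
      ((Nat.card S : ℝ) / (Nat.card (K ≃ₐ[ℚ] K) : ℝ) - ε) * Real.log (1 / (s - 1)) ≤
        ∑ p ∈ T, (p : ℝ) ^ (-s) :=
  cheb_sym_GQ_of_core coreStatement K S hconj hinv bad ε hε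

/-- The glue proposition `ChebHom.ChebSymK` holds (unconditional). -/
theorem chebSymK : Fermat.Agent.DS.ChebHom.ChebSymK :=
  chebSymK_of_core coreStatement

/-- **Symmetric Chebotarev for a finite-level homomorphism of `Gal(ℚ̄/ℚ)`** (unconditional
form of `ChebHom.cheb_sym_hom`). -/
theorem cheb_sym_hom_final {M : Type} [Group M] (ρ : GQ →* M)
    (hρ : GaloisFactorsThroughFiniteLevel ρ) (S : Set M)
    (hconj : ∀ g h, g ∈ S → h ∈ ρ.range → h * g * h⁻¹ ∈ S) (hinv : ∀ g ∈ S, g⁻¹ ∈ S)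
    (bad : Finset ℕ) (ε : ℝ) (hε : 0 < ε) :
    ∃ δ : ℝ, 0 < δ ∧ ∀ s : ℝ, 1 < s → s < 1 + δ → ∃ T : Finset ℕ,
      (∀ p ∈ T, p.Prime ∧ p ∉ bad ∧ ∃ (A : ValuationSubring Qbar) (σ : GQ),
        A.LiesOverPrime p ∧ A.IsFrobeniusAt σ p ∧ ρ σ ∈ S) ∧
      (((S ∩ (ρ.range : Set M)).ncard : ℝ) / Nat.card ρ.range - ε) * Real.log (1 / (s - 1)) ≤
        ∑ p ∈ T, (p : ℝ) ^ (-s) :=
  Fermat.Agent.DS.ChebHom.cheb_sym_hom chebSymK ρ hρ S hconj hinv bad ε hε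

end Fermat.Agent.DS.Cheb
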